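import Mathlib
import Fermat.Prelude.Def_FLTPrelim_Ramification
import Fermat.Agent.S15.Coh.Defs

/-!
# S15-KUM (module M3 = KUM-LOC of S15): definitions

Arithmetic of `ℚ` needed by the abstract descent `S15/Coh` (fields `χ, v, v_*, omega, B1, B2` of
`Coh.Setup`) and by ABS-A / ABS-C ((TI): the pro-`l` tame inertia is procyclic).

* `In A`          : the inertia group of the valuation subring `A` of `ℚ̄`.
* `IsCyc ζ χ`     : `χ : G_ℚ →* ZMod m` is the cyclotomic character (`σ ζ = ζ ^ χ σ`).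
* `IsWit A l m ζ c k β` : `β` is a Kummer generator of the `χ`-twisted cocycle `c` on `In A`
  (`σ β = ζ ^ c σ * β`) and `v (β ^ m) = k * v (l)`.
* `vK A l m ζ c`  : the valuation of the Kummer class of `c` (an element of `ZMod m`).
* `unr p l`       : the union of all inertia groups at the primes `q ≠ p, l`.
* `HasLevel I f`  : `f` vanishes on `I ∩ Gal(ℚ̄ / F)` for some number field `F`.
* `IsTameGen A p l τ` : `τ ∈ In A` moves an `l`-th root of `p` (a generator of the pro-`l` tame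
  inertia at `p ≠ l`).
-/

set_option autoImplicit false

namespace Fermat.Agent.S15.Kum

abbrev Qb : Type := AlgebraicClosure ℚ
abbrev GQ : Type := Qb ≃ₐ[ℚ] Qb

/-- the inertia group of `A`. -/
noncomputable abbrev In (A : ValuationSubring Qb) : Subgroup GQ := A.inertiaSubgroupIn ℚ

/-- `χ` is the cyclotomic character modulo `m` (`ζ` a primitive `m`-th root of unity). -/
def IsCyc {m : ℕ} (ζ : Qb) (χ : GQ →* ZMod m) : Prop := ∀ σ : GQ, σ ζ = ζ ^ (χ σ).val

/-- `β` is a Kummer generator of `c` on `In A` and `v (β ^ m) = k v (l)`. -/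
def IsWit (A : ValuationSubring Qb) (l m : ℕ) (ζ : Qb) (c : GQ → ZMod m) (k : ℤ) (β : Qb) : Prop :=
  β ≠ 0 ∧ (∀ σ ∈ In A, σ β = ζ ^ (c σ).val * β) ∧
    A.valuation (β ^ m) = A.valuation (l : Qb) ^ k

open Classical in
/-- the valuation (mod `m`) of the Kummer class of the cocycle `c` on `In A`. -/
noncomputable def vK (A : ValuationSubring Qb) (l m : ℕ) (ζ : Qb) (c : GQ → ZMod m) : ZMod m :=
  if h : ∃ k : ℤ, ∃ β : Qb, IsWit A l m ζ c k β then (h.choose : ZMod m) else 0

/-- the union of the inertia groups at all primes `q ≠ p, l`. -/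
def unr (p l : ℕ) : Set GQ :=
  {σ | ∃ q : ℕ, q.Prime ∧ q ≠ p ∧ q ≠ l ∧ ∃ A : ValuationSubring Qb, A.LiesOverPrime q ∧ σ ∈ In A}

/-- `f` vanishes on `I ∩ Gal(ℚ̄ / F)` for some number field `F`. -/
def HasLevel {M : Type*} [Zero M] (I : Subgroup GQ) (f : GQ → M) : Prop :=
  ∃ F : IntermediateField ℚ Qb, FiniteDimensional ℚ F ∧
    ∀ σ ∈ I, σ ∈ F.fixingSubgroup → f σ = 0

/-- `τ` is an element of the inertia group at `p` which moves an `l`-th root of `p`. -/
def IsTameGen (A : ValuationSubring Qb) (p l : ℕ) (τ : GQ) : Prop :=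
  τ ∈ In A ∧ ∃ π : Qb, π ^ l = (p : Qb) ∧ τ π ≠ π

end Fermat.Agent.S15.Kum
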