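import Fermat.Agent.S15.Kum.Tower
import Fermat.Agent.S15.Abs.Wire

/-!
# S15-KUM, file For: the arithmetic tower adapted to raw data `R : Raw J p ℓ`

`towerOf R : Coh.ArithTower GQ ℓ`, `towerFor_towerOf R : Abs.TowerFor R (towerOf R)`; the element `φ` is a Frobenius element at
`R.Aℓ` which fixes all `ℓ`-power roots of unity (`χ r φ = 1` for all `r`).
-/

set_option autoImplicit false

namespace Fermat.Agent.S15.Kum

variable {J : Type} [AddCommGroup J] [DistribMulAction GQ J] {p ℓ : ℕ}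

/-- the chosen Frobenius element at `R.Aℓ`, trivial on the `ℓ`-power roots of unity. -/
noncomputable def frobOf (R : Raw J p ℓ) : GQ := (exists_frobenius_fixing R.hℓ R.hAℓ).choose

theorem frobOf_isFrobeniusAt (R : Raw J p ℓ) : R.Aℓ.IsFrobeniusAt (frobOf R) ℓ :=
  (exists_frobenius_fixing R.hℓ R.hAℓ).choose_spec.1

theorem frobOf_fix (R : Raw J p ℓ) (r : ℕ) (ξ : Qb) (hξ : ξ ^ (ℓ ^ r) = 1) : frobOf R ξ = ξ :=
  (exists_frobenius_fixing R.hℓ R.hAℓ).choose_spec.2 r ξ hξ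

/-- THE TOWER. -/
noncomputable def towerOf (R : Raw J p ℓ) : Coh.ArithTower GQ ℓ :=
  arithTower R.hp R.hℓ R.hℓp R.hAp R.hAℓ (frobOf_isFrobeniusAt R).mem_decompositionSubgroup

@[simp] theorem towerOf_Ip (R : Raw J p ℓ) : (towerOf R).Ip = In R.Ap := rfl
@[simp] theorem towerOf_Il (R : Raw J p ℓ) : (towerOf R).Il = In R.Aℓ := rfl
@[simp] theorem towerOf_U (R : Raw J p ℓ) : (towerOf R).U = unr p ℓ := rfl
@[simp] theorem towerOf_φ (R : Raw J p ℓ) : (towerOf R).φ = frobOf R := rfl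
@[simp] theorem towerOf_χ (R : Raw J p ℓ) : (towerOf R).χ = chi R.hℓ := rfl

theorem towerOf_χ_φ (R : Raw J p ℓ) (r : ℕ) : (towerOf R).χ r (towerOf R).φ = 1 :=
  (chi_eq_one_iff R.hℓ r (frobOf R)).2 (frobOf_fix R r)

theorem towerOf_τ (R : Raw J p ℓ) (r : ℕ) : IsTameGen R.Ap p ℓ ((towerOf R).τ r) :=
  (exists_isTameGen (l := ℓ) R.hp R.hℓ R.hAp).choose_spec

theorem towerFor_towerOf (R : Raw J p ℓ) : Abs.TowerFor R (towerOf R) where
  Ip := rfl
  Il := rfl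
  U := rfl
  φ := frobOf_isFrobeniusAt R
  χ := fun r σ _ hζ => chi_spec R.hℓ r σ hζ

end Fermat.Agent.S15.Kum
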