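import Fermat.Agent.S15.Kum.Basic
import Fermat.Agent.Lib.Frobenius
import Fermat.Agent.S55.DIC.Unram6

/-!
# S15-KUM, file Frob: a Frobenius element at `l` which fixes all `l`-power roots of unity

`A` over `l`.
* `isClosed_inertia`: `σ ∈ In A ↔ σ • A = A ∧ ∀ a ∈ A, σ a - a ∈ 𝔪_A` (`S55.DIC.unram6_mem_inertiaSubgroupIn_iff`); `σ • A = A ↔ ∀ a ∈ A, σ a ∈ A ∧ σ⁻¹ a ∈ A`; for fixed `a` the maps
  `σ ↦ σ a`, `σ ↦ σ⁻¹ a` are locally constant for the Krull topology (the stabiliser of `a` is open), so `In A` is an intersection of clopen sets.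
* `val_one_sub_pow`: `(1 - ζ^a)/(1 - ζ) = 1 + ζ + … + ζ^(a-1)` is integral, and so is its inverse (`ζ = (ζ^a)^b` with `a b ≡ 1 mod l^r`); integral elements lie in `A`
  (`Lib.Frobenius.isIntegral_mem`).
* `inertia_surj` (`ℚ(ζ_{l^r})` is totally ramified at `l`): `H := {a ∈ (ℤ/l^r)ˣ | ∃ σ ∈ In A, σ ζ = ζ^a}` is a subgroup; `x := ∏_{a ∈ H} (1 - ζ^a)` is fixed by `In A` (`σ` permutes the factors),
  so `v x = v(l)^k` (`val_fixed`); `v x = v(1-ζ)^|H|` and `v(l) = v(1-ζ)^φ(l^r)` (`∏_{a ∈ (ℤ/l^r)ˣ} (1 - ζ^a) = Φ_{l^r}(1) = l`, `Polynomial.eval_one_cyclotomic_prime_pow`, `Polynomial.cyclotomic_eq_prod_X_sub_primitiveRoots`);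
  `v(1-ζ) < 1` is not torsion, so `|H| = φ(l^r) k`, hence `k = 1` and `H = ⊤`.
* `exists_frobenius_fixing`: `φ₀` a Frobenius element at `A` (`Lib.Frobenius.exists_isFrobeniusAt_of_liesOverPrime`).  `S r := {σ | σ * φ₀⁻¹ ∈ In A ∧ σ (ζ_{l^r}) = ζ_{l^r}}` is closed, nonempty (`inertia_surj`),
  decreasing in `r`; `G_ℚ` is compact: `IsCompact.nonempty_iInter_of_sequence_nonempty_isCompact_isClosed`.  `isFrobeniusAt_mul`.
-/

set_option autoImplicit false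

namespace Fermat.Agent.S15.Kum

variable {l : ℕ} {A : ValuationSubring Qb}

open scoped Pointwise in
/-- evaluation at `a` is locally constant for the Krull topology. -/
theorem Frob_isLocallyConstant_eval (a : Qb) : IsLocallyConstant (fun σ : GQ => σ a) := by
  rw [IsLocallyConstant.iff_exists_open]
  intro τ₀
  refine ⟨τ₀ • (MulAction.stabilizer GQ a : Set GQ),
    (stabilizer_isOpen_of_isIntegral (K := ℚ) a).leftCoset τ₀, ?_, ?_⟩
  · exact ⟨1, one_mem _, by simp⟩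
  · rintro _ ⟨s, hs, rfl⟩
    have hs' : s a = a := hs
    show (τ₀ * s) a = τ₀ a
    rw [AlgEquiv.mul_apply, hs']

open scoped Pointwise in
theorem Frob_smul_eq_iff (A : ValuationSubring Qb) (σ : GQ) :
    σ • A = A ↔ ∀ a : Qb, σ a ∈ A ↔ a ∈ A := by
  constructor
  · intro h a
    have h1 := ValuationSubring.smul_mem_pointwise_smul_iff (g := σ) (S := A) (x := a)
    rw [h] at h1
    exact h1
  · intro h
    ext b
    rw [ValuationSubring.mem_pointwise_smul_iff_inv_smul_mem, ← h (σ⁻¹ • b)]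
    have : σ (σ⁻¹ • b) = b := by
      show σ (σ⁻¹ b) = b
      exact σ.apply_symm_apply b
    rw [this]

theorem isClosed_inertia (A : ValuationSubring Qb) : IsClosed (In A : Set GQ) := by
  have h : (In A : Set GQ) = ⋂ a : Qb, (fun σ : GQ => σ a) ⁻¹'
      {b | (b ∈ A ↔ a ∈ A) ∧ (a ∈ A → b - a ∈ A.nonunits)} := by
    ext σ
    rw [SetLike.mem_coe, S55.DIC.unram6_mem_inertiaSubgroupIn_iff, Frob_smul_eq_iff,
      Set.mem_iInter]
    constructor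
    · rintro ⟨h1, h2⟩ a
      exact ⟨h1 a, h2 a⟩
    · intro h1
      exact ⟨fun a => (h1 a).1, fun a => (h1 a).2⟩
  rw [h]
  refine isClosed_iInter fun a => ?_
  rw [← isOpen_compl_iff, ← Set.preimage_compl]
  exact Frob_isLocallyConstant_eval a _

theorem isFrobeniusAt_mul {φ σ : GQ} (hφ : A.IsFrobeniusAt φ l) (hσ : σ ∈ In A) :
    A.IsFrobeniusAt (σ * φ) l := by
  obtain ⟨hφ', hφx⟩ := hφ
  obtain ⟨g, hg, rfl⟩ := Subgroup.mem_map.mp hσ
  have hgx : ∀ x : IsLocalRing.ResidueField A, g • x = x := by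
    intro x
    have h1 : MulSemiringAction.toRingAut (A.decompositionSubgroup ℚ)
        (IsLocalRing.ResidueField A) g = 1 := MonoidHom.mem_ker.mp hg
    have := congrArg (fun f => f x) h1
    simpa using this
  refine ⟨(A.decompositionSubgroup ℚ).mul_mem g.2 hφ', fun x => ?_⟩
  have e : (⟨(A.decompositionSubgroup ℚ).subtype g * φ,
      (A.decompositionSubgroup ℚ).mul_mem g.2 hφ'⟩ : A.decompositionSubgroup ℚ) =
      g * ⟨φ, hφ'⟩ := rfl
  rw [e, mul_smul, hφx, hgx]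

theorem Frob_val_one_sub_pow_le {ξ : Qb} (hξ : ξ ∈ A) (n : ℕ) :
    A.valuation (1 - ξ ^ n) ≤ A.valuation (1 - ξ) := by
  have h1 : 1 - ξ ^ n = (∑ i ∈ Finset.range n, ξ ^ i) * (1 - ξ) := (geom_sum_mul_neg ξ n).symm
  have h2 : (∑ i ∈ Finset.range n, ξ ^ i) ∈ A := sum_mem fun i _ => pow_mem hξ i
  rw [h1, map_mul]
  exact mul_le_of_le_one_left' ((A.valuation_le_one_iff _).mpr h2)

theorem Frob_mem_of_pow_eq_one {ξ : Qb} {n : ℕ} (hn : 0 < n) (hξ : ξ ^ n = 1) : ξ ∈ A :=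
  Lib.Frobenius.isIntegral_mem A (IsIntegral.of_pow hn (by rw [hξ]; exact isIntegral_one))

theorem val_one_sub_pow (hl : l.Prime) {r : ℕ} {ζ : Qb} (hζ : IsPrimitiveRoot ζ (l ^ r)) {a : ℕ}
    (ha : ¬ l ∣ a) : A.valuation (1 - ζ ^ a) = A.valuation (1 - ζ) := by
  have hpos : 0 < l ^ r := pow_pos hl.pos r
  have hcop : a.Coprime (l ^ r) :=
    Nat.Coprime.pow_right r ((Nat.Prime.coprime_iff_not_dvd hl).mpr ha).symm
  have hζa : IsPrimitiveRoot (ζ ^ a) (l ^ r) := hζ.pow_of_coprime a hcop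
  have : NeZero (l ^ r) := ⟨hpos.ne'⟩
  obtain ⟨b, -, hb⟩ := hζa.eq_pow_of_pow_eq_one hζ.pow_eq_one
  apply le_antisymm
  · exact Frob_val_one_sub_pow_le (Frob_mem_of_pow_eq_one hpos hζ.pow_eq_one) a
  · have := Frob_val_one_sub_pow_le (A := A) (Frob_mem_of_pow_eq_one hpos hζa.pow_eq_one) b
    rwa [hb] at this

theorem val_one_sub_pow_totient (hl : l.Prime) {r : ℕ} (hr : 0 < r) {ζ : Qb}
    (hζ : IsPrimitiveRoot ζ (l ^ r)) :
    A.valuation (1 - ζ) ^ (Nat.totient (l ^ r)) = A.valuation (l : Qb) := by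
  have hpos : 0 < l ^ r := pow_pos hl.pos r
  have : Fact l.Prime := ⟨hl⟩
  obtain ⟨k, rfl⟩ : ∃ k, r = k + 1 := ⟨r - 1, by omega⟩
  have h1 : (l : Qb) = ∏ μ ∈ primitiveRoots (l ^ (k + 1)) Qb, (1 - μ) := by
    rw [← Polynomial.eval_one_cyclotomic_prime_pow (R := Qb) (p := l) k,
      Polynomial.cyclotomic_eq_prod_X_sub_primitiveRoots hζ, Polynomial.eval_prod]
    simp
  rw [h1, map_prod, ← hζ.card_primitiveRoots]
  symm
  apply Finset.prod_eq_pow_card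
  intro μ hμ
  rw [mem_primitiveRoots hpos] at hμ
  have : NeZero (l ^ (k + 1)) := ⟨hpos.ne'⟩
  obtain ⟨i, -, hi, rfl⟩ := hζ.isPrimitiveRoot_iff.mp hμ
  apply val_one_sub_pow hl hζ
  intro hdvd
  have : l ∣ Nat.gcd i (l ^ (k + 1)) := Nat.dvd_gcd hdvd (dvd_pow_self l (Nat.succ_ne_zero k))
  rw [hi] at this
  exact hl.one_lt.ne' (Nat.dvd_one.mp this)


theorem Frob_pow_val_mul {n : ℕ} {ζ : Qb} (h : ζ ^ n = 1) (u v : ZMod n) :
    ζ ^ (u * v).val = (ζ ^ u.val) ^ v.val := by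
  rw [ZMod.val_mul, ← pow_eq_pow_mod _ h, ← pow_mul]

/-- the cyclotomic character modulo `l^r` is onto on the inertia group at `l`. -/
theorem inertia_surj (hl : l.Prime) (hA : A.LiesOverPrime l) {r : ℕ} {ζ : Qb}
    (hζ : IsPrimitiveRoot ζ (l ^ r)) {a : ℕ} (ha : ¬ l ∣ a) : ∃ σ ∈ In A, σ ζ = ζ ^ a := by
  classical
  rcases Nat.eq_zero_or_pos r with rfl | hr
  · refine ⟨1, one_mem _, ?_⟩
    have h1 : ζ = 1 := by
      rw [pow_zero] at hζ
      exact IsPrimitiveRoot.one_right_iff.mp hζ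
    rw [h1, one_pow, map_one]
  have hn1 : 1 < l ^ r := Nat.one_lt_pow hr.ne' hl.one_lt
  haveI : NeZero (l ^ r) := ⟨(pow_pos hl.pos r).ne'⟩
  have hχ : ∀ σ : GQ, σ ζ = ζ ^ ((hζ.autToPow ℚ σ : (ZMod (l ^ r))ˣ) : ZMod (l ^ r)).val :=
    fun σ => (hζ.autToPow_spec ℚ σ).symm
  have hnd : ∀ u : (ZMod (l ^ r))ˣ, ¬ l ∣ ((u : ZMod (l ^ r))).val := by
    intro u hdvd
    have hc := ZMod.val_coe_unit_coprime u
    have h2 : l ∣ Nat.gcd ((u : ZMod (l ^ r))).val (l ^ r) :=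
      Nat.dvd_gcd hdvd (dvd_pow_self l hr.ne')
    rw [hc] at h2
    exact hl.one_lt.ne' (Nat.dvd_one.mp h2)
  set H : Subgroup (ZMod (l ^ r))ˣ := (In A).map (hζ.autToPow ℚ) with hH
  set f : (ZMod (l ^ r))ˣ → Qb := fun u => 1 - ζ ^ ((u : ZMod (l ^ r)).val) with hf
  have hfσ : ∀ (σ : GQ) (u : (ZMod (l ^ r))ˣ), σ (f u) = f (hζ.autToPow ℚ σ * u) := by
    intro σ u
    simp only [hf]
    rw [map_sub, map_one, map_pow, hχ σ, Units.val_mul, Frob_pow_val_mul hζ.pow_eq_one]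
  have hf0 : ∀ u : (ZMod (l ^ r))ˣ, f u ≠ 0 := by
    intro u h0
    have hp : IsPrimitiveRoot (ζ ^ ((u : ZMod (l ^ r)).val)) (l ^ r) :=
      hζ.pow_of_coprime _ (ZMod.val_coe_unit_coprime u)
    exact hp.ne_one hn1 (sub_eq_zero.mp h0).symm
  have hfv : ∀ u : (ZMod (l ^ r))ˣ, A.valuation (f u) = A.valuation (1 - ζ) := fun u =>
    val_one_sub_pow hl hζ (hnd u)
  -- the product over `H`
  set x : Qb := ∏ u : H, f (u : (ZMod (l ^ r))ˣ) with hx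
  have hx0 : x ≠ 0 := Finset.prod_ne_zero_iff.mpr fun u _ => hf0 u
  have hxfix : ∀ σ ∈ In A, σ x = x := by
    intro σ hσ
    have hmem : hζ.autToPow ℚ σ ∈ H := Subgroup.mem_map_of_mem _ hσ
    rw [hx, map_prod]
    simp only [hfσ]
    exact Equiv.prod_comp (Equiv.mulLeft (⟨hζ.autToPow ℚ σ, hmem⟩ : H))
      (fun u : H => f (u : (ZMod (l ^ r))ˣ))
  obtain ⟨k, hk⟩ := val_fixed A hl hA hx0 hxfix
  have hxv : A.valuation x = A.valuation (1 - ζ) ^ Fintype.card H := by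
    rw [hx, map_prod]
    simp only [hfv]
    rw [Finset.prod_const, Finset.card_univ]
  have htot := val_one_sub_pow_totient (A := A) hl hr hζ
  have hcard : ((Fintype.card H : ℕ) : ℤ) = k * (Nat.totient (l ^ r) : ℤ) := by
    apply zpow_val_inj A hl hA
    rw [zpow_natCast, zpow_mul, ← hk, hxv, zpow_natCast, ← htot, ← pow_mul, ← pow_mul, mul_comm]
  have hHpos : 0 < Fintype.card H := Fintype.card_pos
  have hφpos : 0 < Nat.totient (l ^ r) := Nat.totient_pos.mpr (pow_pos hl.pos r)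
  have hle : Fintype.card H ≤ Nat.totient (l ^ r) := by
    rw [← ZMod.card_units_eq_totient]
    exact Fintype.card_subtype_le _
  have hge : Nat.totient (l ^ r) ≤ Fintype.card H := by
    have hkpos : 0 < k := by
      by_contra hk0
      have h1 : k * (Nat.totient (l ^ r) : ℤ) ≤ 0 :=
        mul_nonpos_of_nonpos_of_nonneg (not_lt.mp hk0) (Int.natCast_nonneg _)
      have h2 : (0 : ℤ) < (Fintype.card H : ℕ) := by exact_mod_cast hHpos
      omega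
    have h3 : (Nat.totient (l ^ r) : ℤ) ≤ k * (Nat.totient (l ^ r) : ℤ) :=
      le_mul_of_one_le_left (Int.natCast_nonneg _) hkpos
    have h4 : (Nat.totient (l ^ r) : ℤ) ≤ (Fintype.card H : ℕ) := by rw [hcard]; exact h3
    exact_mod_cast h4
  have htop : H = ⊤ := by
    apply Subgroup.eq_top_of_card_eq
    rw [Nat.card_eq_fintype_card, Nat.card_eq_fintype_card, ZMod.card_units_eq_totient]
    exact le_antisymm hle hge
  have hcop : Nat.Coprime a (l ^ r) :=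
    Nat.Coprime.pow_right r ((Nat.Prime.coprime_iff_not_dvd hl).mpr ha).symm
  have hmem : ZMod.unitOfCoprime a hcop ∈ H := htop ▸ Subgroup.mem_top _
  obtain ⟨σ, hσ, hσa⟩ := Subgroup.mem_map.mp hmem
  refine ⟨σ, hσ, ?_⟩
  rw [hχ σ, hσa, ZMod.coe_unitOfCoprime, ZMod.val_natCast, ← pow_eq_pow_mod _ hζ.pow_eq_one]

theorem Frob_isClosed_fix (ξ : Qb) : IsClosed {σ : GQ | σ ξ = ξ} := by
  have h : {σ : GQ | σ ξ = ξ} = (fun σ : GQ => σ ξ) ⁻¹' {ξ} := rfl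
  rw [h, ← isOpen_compl_iff, ← Set.preimage_compl]
  exact Frob_isLocallyConstant_eval ξ _

/-- the sets whose intersection is taken in `exists_frobenius_fixing`. -/
def Frob_S (A : ValuationSubring Qb) (l : ℕ) (φ₀ : GQ) (r : ℕ) : Set GQ :=
  {σ | σ * φ₀⁻¹ ∈ In A ∧ ∀ ξ : Qb, ξ ^ (l ^ (r + 1)) = 1 → σ ξ = ξ}

theorem Frob_S_isClosed (A : ValuationSubring Qb) (l : ℕ) (φ₀ : GQ) (r : ℕ) :
    IsClosed (Frob_S A l φ₀ r) := by
  have h : Frob_S A l φ₀ r = (fun σ : GQ => σ * φ₀⁻¹) ⁻¹' (In A : Set GQ) ∩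
      ⋂ ξ : Qb, ⋂ _ : ξ ^ (l ^ (r + 1)) = 1, {σ : GQ | σ ξ = ξ} := by
    ext σ
    simp only [Frob_S, Set.mem_ofPred_eq, Set.mem_inter_iff, Set.mem_preimage, SetLike.mem_coe,
      Set.mem_iInter]
  rw [h]
  refine IsClosed.inter ((isClosed_inertia A).preimage (continuous_mul_const _)) ?_
  exact isClosed_iInter fun ξ => isClosed_iInter fun _ => Frob_isClosed_fix ξ

theorem Frob_S_anti (A : ValuationSubring Qb) (l : ℕ) (φ₀ : GQ) (r : ℕ) :
    Frob_S A l φ₀ (r + 1) ⊆ Frob_S A l φ₀ r := by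
  rintro σ ⟨h1, h2⟩
  refine ⟨h1, fun ξ hξ => h2 ξ ?_⟩
  rw [pow_succ l (r + 1), pow_mul, hξ, one_pow]

theorem Frob_S_nonempty (hl : l.Prime) (hA : A.LiesOverPrime l) (φ₀ : GQ) (r : ℕ) :
    (Frob_S A l φ₀ r).Nonempty := by
  have hne : NeZero ((l ^ (r + 1) : ℕ) : Qb) :=
    ⟨Nat.cast_ne_zero.2 (pow_ne_zero _ hl.ne_zero)⟩
  have hpos : 0 < l ^ (r + 1) := pow_pos hl.pos _
  have : NeZero (l ^ (r + 1)) := ⟨hpos.ne'⟩
  obtain ⟨ζ, hζ⟩ := HasEnoughRootsOfUnity.exists_primitiveRoot Qb (l ^ (r + 1))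
  have hζ' : IsPrimitiveRoot (φ₀ ζ) (l ^ (r + 1)) := hζ.map_of_injective φ₀.injective
  obtain ⟨b, -, hb⟩ := hζ'.eq_pow_of_pow_eq_one hζ.pow_eq_one
  have hcop : b.Coprime (l ^ (r + 1)) := by
    rw [← hζ'.pow_iff_coprime hpos, hb]
    exact hζ
  have hlb : ¬ l ∣ b := by
    intro hd
    have h1 : l ∣ Nat.gcd b (l ^ (r + 1)) := Nat.dvd_gcd hd (dvd_pow_self l (Nat.succ_ne_zero r))
    rw [hcop] at h1
    exact hl.one_lt.ne' (Nat.dvd_one.mp h1)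
  obtain ⟨τ, hτ, hτζ⟩ := inertia_surj hl hA hζ' hlb
  refine ⟨τ * φ₀, ?_, ?_⟩
  · rw [mul_inv_cancel_right]
    exact hτ
  · intro ξ hξ
    obtain ⟨i, -, rfl⟩ := hζ.eq_pow_of_pow_eq_one hξ
    rw [map_pow, AlgEquiv.mul_apply, hτζ, hb]

theorem exists_frobenius_fixing (hl : l.Prime) (hA : A.LiesOverPrime l) :
    ∃ φ : GQ, A.IsFrobeniusAt φ l ∧ ∀ (r : ℕ) (ξ : Qb), ξ ^ (l ^ r) = 1 → φ ξ = ξ := by
  have hcl : IsAlgClosure ℚ Qb := ⟨inferInstance, AlgebraicClosure.isAlgebraic ℚ⟩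
  have hgal : IsGalois ℚ Qb := IsAlgClosure.isGalois ℚ Qb
  have hcomp : CompactSpace GQ := inferInstance
  obtain ⟨φ₀, hφ₀⟩ := Lib.Frobenius.exists_isFrobeniusAt_of_liesOverPrime A hl hA
  obtain ⟨φ, hφ⟩ := IsCompact.nonempty_iInter_of_sequence_nonempty_isCompact_isClosed
    (Frob_S A l φ₀) (Frob_S_anti A l φ₀) (Frob_S_nonempty hl hA φ₀)
    (Frob_S_isClosed A l φ₀ 0).isCompact (Frob_S_isClosed A l φ₀)
  rw [Set.mem_iInter] at hφ
  refine ⟨φ, ?_, fun r ξ hξ => (hφ r).2 ξ ?_⟩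
  · have h1 := isFrobeniusAt_mul hφ₀ (hφ 0).1
    rwa [inv_mul_cancel_right] at h1
  · rw [pow_succ l r, pow_mul, hξ, one_pow]

end Fermat.Agent.S15.Kum
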