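import Fermat.Agent.S15.Kum.Level
import Fermat.Agent.S13.Mink
import Fermat.Agent.S55.DIC.Unram6
import Fermat.Agent.S55.DIC.Image1

/-!
# S15-KUM, file Mink: (5b) for `ℤ/l`: everywhere unramified homomorphisms of `G_ℚ` are trivial

* `inertia_conj`: `A`, `B` over the same prime are conjugate (`S55.DIC.image1_exists_conj_Qb`), and the inertia groups are then conjugate
  (`S55.DIC.unram6_conj_mem_inertia`, `unram6_mem_inertiaSubgroupIn_iff`).
* `B1`: `H := {σ | c σ = 0}` is a normal subgroup (`c` is a homomorphism to an abelian group), contains `F.fixingSubgroup`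
  (`hasLevel_top_of_isLocallyConstant`) and all inertia groups (`inertia_conj` for the primes `p`, `l`); `S13.eq_top_of_inertia_le`.
* `eq_top_of_isClosed`: `σ ∉ H`, `H` closed: there is a finite `F` with `σ * F.fixingSubgroup` disjoint from `H`; enlarge `F` to its normal closure; `H ⊔ F.fixingSubgroup`
  is normal, open, contains all inertia groups, so it is `⊤`: `σ = h u`, `h = σ u⁻¹ ∈ H`: contradiction.
-/

set_option autoImplicit false

namespace Fermat.Agent.S15.Kum

open scoped Pointwise in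
/-- the inertia groups over a prime are conjugate. -/
theorem inertia_conj {q : ℕ} (hq : q.Prime) (A B : ValuationSubring Qb) (hA : A.LiesOverPrime q)
    (hB : B.LiesOverPrime q) : ∃ g : GQ, ∀ σ ∈ In B, g⁻¹ * σ * g ∈ In A := by
  obtain ⟨g, hg⟩ := S55.DIC.image1_exists_conj_Qb A B hq hA hB
  have hAB : A = g⁻¹ • B := by
    ext x
    rw [S55.DIC.unram6_mem_inv_smul_iff]
    exact hg x
  refine ⟨g, fun σ hσ => ?_⟩
  rw [hAB]
  exact S55.DIC.unram6_conj_mem_inertia B g σ hσ

/-- (5b), Minkowski. -/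
theorem B1 {p l : ℕ} (hp : p.Prime) (hl : l.Prime) (Ap Al : ValuationSubring Qb)
    (hAp : Ap.LiesOverPrime p) (hAl : Al.LiesOverPrime l) {M : Type*} [AddCommGroup M]
    (c : GQ → M) (hlc : IsLocallyConstant c) (hadd : ∀ σ τ, c (σ * τ) = c σ + c τ)
    (hIp : ∀ σ ∈ In Ap, c σ = 0) (hIl : ∀ σ ∈ In Al, c σ = 0) (hU : ∀ σ ∈ unr p l, c σ = 0) :
    ∀ σ, c σ = 0 := by
  have h1 : c 1 = 0 := by
    have := hadd 1 1
    rw [mul_one] at this
    exact left_eq_add.1 this
  have hinv : ∀ g : GQ, c g⁻¹ = - c g := by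
    intro g
    have := hadd g⁻¹ g
    rw [inv_mul_cancel, h1] at this
    exact eq_neg_of_add_eq_zero_left this.symm
  have hconj : ∀ g σ : GQ, c (g⁻¹ * σ * g) = c σ := by
    intro g σ
    rw [hadd, hadd, hinv]
    abel
  let φ : GQ →* Multiplicative M :=
    { toFun := fun σ => Multiplicative.ofAdd (c σ)
      map_one' := by rw [h1]; rfl
      map_mul' := fun σ τ => by rw [hadd]; rfl }
  have hφ : ∀ σ, σ ∈ φ.ker ↔ c σ = 0 := by
    intro σ
    rw [MonoidHom.mem_ker]
    show Multiplicative.ofAdd (c σ) = 1 ↔ _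
    rw [ofAdd_eq_one]
  obtain ⟨F, hF, hFc⟩ := hasLevel_top_of_isLocallyConstant c hlc h1
  have htop : φ.ker = ⊤ := by
    refine S13.eq_top_of_inertia_le φ.ker inferInstance F hF
      (fun σ hσ => (hφ σ).2 (hFc σ (Subgroup.mem_top σ) hσ)) ?_
    intro q hq A hA σ hσ
    rw [hφ]
    by_cases hqp : q = p
    · subst hqp
      obtain ⟨g, hg⟩ := inertia_conj hq Ap A hAp hA
      rw [← hconj g σ]
      exact hIp _ (hg σ hσ)
    by_cases hql : q = l
    · subst hql
      obtain ⟨g, hg⟩ := inertia_conj hq Al A hAl hA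
      rw [← hconj g σ]
      exact hIl _ (hg σ hσ)
    exact hU σ ⟨q, hq, hqp, hql, A, hA, hσ⟩
  intro σ
  rw [← hφ, htop]
  exact Subgroup.mem_top σ

/-- Minkowski for closed normal subgroups. -/
theorem eq_top_of_isClosed (H : Subgroup GQ) (hH : H.Normal) (hc : IsClosed (H : Set GQ))
    (hI : ∀ q : ℕ, q.Prime → ∀ A : ValuationSubring Qb, A.LiesOverPrime q → In A ≤ H) :
    H = ⊤ := by
  have hcl : IsAlgClosure ℚ Qb := ⟨inferInstance, AlgebraicClosure.isAlgebraic ℚ⟩
  have hgal : IsGalois ℚ Qb := IsAlgClosure.isGalois ℚ Qb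
  have hnor : Normal ℚ Qb := hgal.to_normal
  by_contra hne
  obtain ⟨σ, hσ⟩ : ∃ σ : GQ, σ ∉ H := by
    by_contra hall
    push Not at hall
    exact hne (eq_top_iff.2 fun σ _ => hall σ)
  have hopen : IsOpen ((H : Set GQ)ᶜ) := hc.isOpen_compl
  have hnhds : {u : GQ | σ * u ∈ ((H : Set GQ)ᶜ)} ∈ nhds (1 : GQ) := by
    have hcont : Continuous (fun u : GQ => σ * u) := continuous_const.mul continuous_id
    refine (hopen.preimage hcont).mem_nhds ?_
    show σ * 1 ∈ ((H : Set GQ)ᶜ)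
    rw [mul_one]
    exact hσ
  obtain ⟨E, hEfin, hEnor, hE⟩ := (krullTopology_mem_nhds_one_iff_of_normal ℚ Qb _).1 hnhds
  have hEN : E.fixingSubgroup.Normal := by
    rw [← IntermediateField.restrictNormalHom_ker E]
    infer_instance
  have htop : H ⊔ E.fixingSubgroup = ⊤ :=
    S13.eq_top_of_inertia_le (H ⊔ E.fixingSubgroup) inferInstance E hEfin le_sup_right
      (fun q hq A hA => (hI q hq A hA).trans le_sup_left)
  have hmem : σ ∈ H ⊔ E.fixingSubgroup := by
    rw [htop]
    exact Subgroup.mem_top σ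
  obtain ⟨h, hh, u, hu, hhu⟩ := Subgroup.mem_sup_of_normal_right.1 hmem
  have h2 : σ * u⁻¹ ∈ ((H : Set GQ)ᶜ) := hE (E.fixingSubgroup.inv_mem hu)
  apply h2
  rw [← hhu, mul_inv_cancel_right]
  exact hh

end Fermat.Agent.S15.Kum
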