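import Mathlib

/-!
# S15-KUM, file RatPow: a rational number all of whose valuations are divisible by `l` is `±` an `l`-th power  (Mathlib only)
-/

set_option autoImplicit false

namespace Fermat.Agent.S15.Kum

theorem nat_exists_pow_eq {l : ℕ} (hl : 0 < l) {n : ℕ} (hn : n ≠ 0)
    (h : ∀ q : ℕ, q.Prime → l ∣ n.factorization q) : ∃ b : ℕ, b ≠ 0 ∧ n = b ^ l := by
  set f : ℕ →₀ ℕ := n.factorization.mapRange (fun e => e / l) (Nat.zero_div l) with hf
  have hprime : ∀ q ∈ f.support, q.Prime := fun q hq =>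
    Nat.prime_of_mem_primeFactors (by
      have := Finsupp.support_mapRange hq
      rwa [Nat.support_factorization] at this)
  have hb0 : f.prod (fun q e => q ^ e) ≠ 0 :=
    Finset.prod_ne_zero_iff.2 fun q hq => pow_ne_zero _ (hprime q hq).ne_zero
  refine ⟨f.prod (fun q e => q ^ e), hb0, ?_⟩
  refine Nat.eq_of_factorization_eq hn (pow_ne_zero l hb0) fun q => ?_
  rw [Nat.factorization_pow, Nat.prod_pow_factorization_eq_self hprime, Finsupp.smul_apply,
    hf, Finsupp.mapRange_apply, smul_eq_mul]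
  by_cases hq : q.Prime
  · exact (Nat.mul_div_cancel' (h q hq)).symm
  · rw [Nat.factorization_eq_zero_of_not_prime n hq, Nat.zero_div, mul_zero]

theorem rat_exists_pow_eq {l : ℕ} (hl : 0 < l) {a : ℚ} (ha : a ≠ 0)
    (h : ∀ q : ℕ, q.Prime → (l : ℤ) ∣ padicValRat q a) :
    ∃ b : ℚ, b ≠ 0 ∧ (a = b ^ l ∨ a = - b ^ l) := by
  have hnum : a.num.natAbs ≠ 0 := Int.natAbs_ne_zero.2 (Rat.num_ne_zero.2 ha)
  have hden : a.den ≠ 0 := a.den_nz
  have hval : ∀ q : ℕ, padicValRat q a =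
      (padicValNat q a.num.natAbs : ℤ) - (padicValNat q a.den : ℤ) := fun q => rfl
  have key : ∀ q : ℕ, q.Prime →
      l ∣ a.num.natAbs.factorization q ∧ l ∣ a.den.factorization q := by
    intro q hq
    have h1 := h q hq
    rw [hval] at h1
    rw [Nat.factorization_def _ hq, Nat.factorization_def _ hq]
    by_cases hqd : q ∣ a.den
    · have hqn : ¬ q ∣ a.num.natAbs := fun hqn =>
        hq.one_lt.ne' (Nat.eq_one_of_dvd_coprimes a.reduced hqn hqd)
      rw [padicValNat.eq_zero_of_not_dvd hqn] at h1 ⊢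
      refine ⟨dvd_zero _, ?_⟩
      rw [Nat.cast_zero, zero_sub, dvd_neg] at h1
      exact_mod_cast h1
    · rw [padicValNat.eq_zero_of_not_dvd hqd] at h1 ⊢
      refine ⟨?_, dvd_zero _⟩
      rw [Nat.cast_zero, sub_zero] at h1
      exact_mod_cast h1
  obtain ⟨b1, hb1, he1⟩ := nat_exists_pow_eq hl hnum fun q hq => (key q hq).1
  obtain ⟨b2, hb2, he2⟩ := nat_exists_pow_eq hl hden fun q hq => (key q hq).2
  have hb1' : (b1 : ℚ) ≠ 0 := Nat.cast_ne_zero.2 hb1
  have hb2' : (b2 : ℚ) ≠ 0 := Nat.cast_ne_zero.2 hb2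
  refine ⟨(b1 : ℚ) / b2, div_ne_zero hb1' hb2', ?_⟩
  have ha' : a = (a.num : ℚ) / (a.den : ℚ) := (Rat.num_div_den a).symm
  have hd : (a.den : ℚ) = (b2 : ℚ) ^ l := by rw [he2]; push_cast; rfl
  have hn' : ((a.num.natAbs : ℤ) : ℚ) = (b1 : ℚ) ^ l := by
    rw [he1]; push_cast; rfl
  rcases Int.natAbs_eq a.num with hs | hs
  · left
    rw [div_pow, ← hd, ← hn', ← hs]
    exact ha'
  · right
    rw [div_pow, ← hd, ← hn', ← neg_div, ← Int.cast_neg, ← hs]
    exact ha'

end Fermat.Agent.S15.Kum
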