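import Fermat.Agent.S15.Kum.Val
import Fermat.Agent.S15.Kum.RatPow
import Fermat.Agent.Lib.Frobenius

/-!
# S15-KUM, file B2: (5b) for `μ_l`: there are at most `l` strict cocycles

`c` strict.  `exists_kummer_gen` on `I = ⊤`: `β ≠ 0`, `σ β = ζ ^ c σ * β`.  `l • c σ = 0` gives `(ζ ^ c σ)^l = 1`, so `β ^ l` is fixed by `G_ℚ`:
`β ^ l = a ∈ ℚ` (`exists_rat_of_fixed`).  For every prime `q`, `l ∣ padicValRat q a`:
* `q ≠ p, l`: take `A` over `q` (`Lib.Frobenius.exists_liesOverPrime`); `c = 0` on `In A ⊆ unr p l`, so `β` is fixed by `In A`, `v β = v(q)^i` (`val_fixed`),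
  `v a = v(q)^(l i)`, `val_ratCast`, `zpow_val_inj`.     * `q = p`: the same with `Ap`.
* `q = l`: `(k, β)` with `k = padicValRat l a * (m / l)` is a witness (`β ^ m = a ^ (m/l)`), so `vK c = k` (`vK_eq`); `vK c = 0` gives `m ∣ k`, i.e. `l ∣ padicValRat l a`.
`rat_exists_pow_eq`: `a = ± b ^ l`, `(β / b)^(2 l) = 1`, `β / b = ω ^ i` with `i < 2 l` (`IsPrimitiveRoot.eq_pow_of_pow_eq_one`), `ω ^ l = -1`, so `β / b = ± ω ^ j`, `j = i % l`.
`B2`: `c` is determined by `j` (`ζ ^ a.val` is injective in `a : ZMod m`), so the set is contained in the range of a function on `Fin l`.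
-/

set_option autoImplicit false

namespace Fermat.Agent.S15.Kum

variable {p l m : ℕ} [NeZero m] {Ap Al : ValuationSubring Qb} {ζ : Qb} {χ : GQ →* ZMod m}

/-- if the Kummer generator `β` of `β ^ l = a ∈ ℚ` is fixed by the inertia group at `q` then
`l ∣ v_q(a)`. -/
theorem B2_dvd_of_fixed {q l : ℕ} (hq : q.Prime) {A : ValuationSubring Qb} (hA : A.LiesOverPrime q)
    {β : Qb} (hβ0 : β ≠ 0) (hfix : ∀ σ ∈ In A, σ β = β) {a : ℚ} (ha0 : a ≠ 0)
    (ha : ((a : ℚ) : Qb) = β ^ l) : (l : ℤ) ∣ padicValRat q a := by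
  obtain ⟨k, hk⟩ := val_fixed A hq hA hβ0 hfix
  have h1 := val_ratCast A hq hA ha0
  rw [ha, map_pow, hk, ← zpow_natCast, ← zpow_mul] at h1
  have h2 := zpow_val_inj A hq hA h1
  exact ⟨k, by rw [← h2, mul_comm]⟩

/-- the Kummer generator of a strict cocycle is `l`-th root of a rational number which is `±` an `l`-th power. -/
theorem strict_exists_rat (hp : p.Prime) (hl : l.Prime) (hAp : Ap.LiesOverPrime p)
    (hAl : Al.LiesOverPrime l) {r : ℕ} (hr : 0 < r) (hm : m = l ^ r) (hζ : IsPrimitiveRoot ζ m)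
    (hχ : IsCyc ζ χ) {c : GQ → ZMod m}
    (hc : Coh.IsStrict l χ (In Ap) (unr p l) (vK Al l m ζ) c) :
    ∃ β : Qb, β ≠ 0 ∧ (∀ σ : GQ, σ β = ζ ^ (c σ).val * β) ∧
      ∃ b : ℚ, b ≠ 0 ∧ (β ^ l = ((b : ℚ) : Qb) ^ l ∨ β ^ l = - ((b : ℚ) : Qb) ^ l) := by
  obtain ⟨hlc, hcoc, hlk, hIp, hU, hv⟩ := hc
  have hζm : ζ ^ m = 1 := hζ.pow_eq_one
  have hc1 : c 1 = 0 := by
    have h1 := hcoc 1 1
    rw [mul_one, map_one, one_mul] at h1
    exact left_eq_add.1 h1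
  have hlev : HasLevel ⊤ c := hasLevel_top_of_isLocallyConstant c hlc hc1
  obtain ⟨β, hβ0, hβ⟩ := exists_kummer_gen hζm hχ ⊤ c (fun σ _ τ _ => hcoc σ τ) hlev
  have hβ' : ∀ σ : GQ, σ β = ζ ^ (c σ).val * β := fun σ => hβ σ (Subgroup.mem_top σ)
  have hpow : ∀ σ : GQ, (ζ ^ (c σ).val) ^ l = 1 := by
    intro σ
    rw [← pow_mul]
    have h1 : ((((c σ).val * l : ℕ)) : ZMod m) = 0 := by
      push_cast
      rw [ZMod.natCast_zmod_val]
      have := hlk σ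
      rwa [nsmul_eq_mul, mul_comm] at this
    obtain ⟨k, hk⟩ := (ZMod.natCast_eq_zero_iff _ _).1 h1
    rw [hk, pow_mul, hζm, one_pow]
  obtain ⟨a, ha⟩ := exists_rat_of_fixed (x := β ^ l)
    (fun σ => by rw [map_pow, hβ', mul_pow, hpow, one_mul])
  have ha0 : a ≠ 0 := by
    rintro rfl
    rw [Rat.cast_zero] at ha
    exact pow_ne_zero l hβ0 ha.symm
  have hfix : ∀ A : ValuationSubring Qb, (∀ σ ∈ In A, c σ = 0) → ∀ σ ∈ In A, σ β = β := by
    intro A hA σ hσ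
    rw [hβ', hA σ hσ, ZMod.val_zero, pow_zero, one_mul]
  have key : ∀ q : ℕ, q.Prime → (l : ℤ) ∣ padicValRat q a := by
    intro q hq
    by_cases hqp : q = p
    · subst hqp
      exact B2_dvd_of_fixed hq hAp hβ0 (hfix Ap hIp) ha0 ha
    by_cases hql : q = l
    · subst hql
      obtain ⟨s, hs⟩ : ∃ s : ℕ, m = q * s := ⟨q ^ (r - 1), by
        rw [hm, ← pow_succ', Nat.sub_add_cancel hr]⟩
      have hs0 : s ≠ 0 := by
        rintro rfl
        exact NeZero.ne m (by rw [hs, mul_zero])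
      have hwit : IsWit Al q m ζ c (padicValRat q a * s) β := by
        refine ⟨hβ0, fun σ _ => hβ' σ, ?_⟩
        rw [hs, pow_mul, ← ha, map_pow, val_ratCast Al hq hAl ha0, ← zpow_natCast, ← zpow_mul]
      have h1 := vK_eq hq hAl hwit
      rw [hv] at h1
      have h2 := (ZMod.intCast_zmod_eq_zero_iff_dvd _ _).1 h1.symm
      rw [hs] at h2
      push_cast at h2
      exact Int.dvd_of_mul_dvd_mul_right (by exact_mod_cast hs0) h2
    · obtain ⟨A, hA⟩ := Lib.Frobenius.exists_liesOverPrime (K := Qb) q hq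
      exact B2_dvd_of_fixed hq hA hβ0
        (hfix A fun σ hσ => hU σ ⟨q, hq, hqp, hql, A, hA, hσ⟩) ha0 ha
  obtain ⟨b, hb0, hb⟩ := rat_exists_pow_eq hl.pos ha0 key
  refine ⟨β, hβ0, hβ', b, hb0, ?_⟩
  rcases hb with hb | hb
  · left
    rw [← ha, hb]
    push_cast
    rfl
  · right
    rw [← ha, hb]
    push_cast
    rfl

theorem strict_exists (hp : p.Prime) (hl : l.Prime) (hAp : Ap.LiesOverPrime p)
    (hAl : Al.LiesOverPrime l) {r : ℕ} (hr : 0 < r) (hm : m = l ^ r) (hζ : IsPrimitiveRoot ζ m)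
    (hχ : IsCyc ζ χ) {ω : Qb} (hω : IsPrimitiveRoot ω (2 * l)) {c : GQ → ZMod m}
    (hc : Coh.IsStrict l χ (In Ap) (unr p l) (vK Al l m ζ) c) :
    ∃ j < l, ∀ σ : GQ, σ (ω ^ j) = ζ ^ (c σ).val * ω ^ j := by
  obtain ⟨β, hβ0, hβ, b, hb0, hb⟩ := strict_exists_rat hp hl hAp hAl hr hm hζ hχ hc
  have hb0' : ((b : ℚ) : Qb) ≠ 0 := by exact_mod_cast hb0
  have hσb : ∀ σ : GQ, σ ((b : ℚ) : Qb) = ((b : ℚ) : Qb) := fun σ => map_ratCast σ b
  -- `γ = β / b`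
  have hγ : ∀ σ : GQ, σ (β / ((b : ℚ) : Qb)) = ζ ^ (c σ).val * (β / ((b : ℚ) : Qb)) := fun σ => by
    rw [map_div₀, hβ σ, hσb σ, mul_div_assoc]
  have hγ0 : β / ((b : ℚ) : Qb) ≠ 0 := div_ne_zero hβ0 hb0'
  have hγ2 : (β / ((b : ℚ) : Qb)) ^ (2 * l) = 1 := by
    have hbl : ((b : ℚ) : Qb) ^ l ≠ 0 := pow_ne_zero _ hb0'
    rw [mul_comm, pow_mul, div_pow]
    rcases hb with hb | hb
    · rw [hb, div_self hbl, one_pow]
    · rw [hb, neg_div, div_self hbl]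
      norm_num
  have : NeZero (2 * l) := ⟨by have := hl.pos; omega⟩
  obtain ⟨i, -, hi⟩ := hω.eq_pow_of_pow_eq_one hγ2
  have hωl : ω ^ l = -1 := by
    have h1 : (ω ^ l) ^ 2 = 1 := by rw [← pow_mul, mul_comm, hω.pow_eq_one]
    have h2 : ω ^ l ≠ 1 := hω.pow_ne_one_of_pos_of_lt hl.pos.ne' (by have := hl.pos; omega)
    rcases sq_eq_one_iff.1 h1 with h | h
    · exact absurd h h2
    · exact h
  refine ⟨i % l, Nat.mod_lt _ hl.pos, fun σ => ?_⟩
  have hdec : β / ((b : ℚ) : Qb) = (-1) ^ (i / l) * ω ^ (i % l) := by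
    rw [← hi, ← hωl, ← pow_mul, ← pow_add, Nat.div_add_mod]
  have hε0 : ((-1 : Qb)) ^ (i / l) ≠ 0 := pow_ne_zero _ (neg_ne_zero.2 one_ne_zero)
  have h := hγ σ
  rw [hdec, map_mul, map_pow, map_neg, map_one] at h
  apply mul_left_cancel₀ hε0
  rw [h]
  ring

theorem B2 (hp : p.Prime) (hl : l.Prime) (hAp : Ap.LiesOverPrime p)
    (hAl : Al.LiesOverPrime l) {r : ℕ} (hr : 0 < r) (hm : m = l ^ r) (hζ : IsPrimitiveRoot ζ m)
    (hχ : IsCyc ζ χ) :
    {c | Coh.IsStrict l χ (In Ap) (unr p l) (vK Al l m ζ) c}.Finite ∧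
      {c | Coh.IsStrict l χ (In Ap) (unr p l) (vK Al l m ζ) c}.ncard ≤ l := by
  classical
  have : NeZero (((2 * l : ℕ)) : Qb) := ⟨by
    have := hl.pos
    exact_mod_cast (by omega : 2 * l ≠ 0)⟩
  have : NeZero (2 * l) := ⟨by have := hl.pos; omega⟩
  obtain ⟨ω, hω⟩ := HasEnoughRootsOfUnity.exists_primitiveRoot Qb (2 * l)
  let F : Fin l → (GQ → ZMod m) := fun j =>
    if h : ∃ c : GQ → ZMod m, ∀ σ : GQ, σ (ω ^ (j : ℕ)) = ζ ^ (c σ).val * ω ^ (j : ℕ) then h.choose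
    else 0
  have hsub : {c | Coh.IsStrict l χ (In Ap) (unr p l) (vK Al l m ζ) c} ⊆ Set.range F := by
    intro c hc
    obtain ⟨j, hj, hcj⟩ := strict_exists hp hl hAp hAl hr hm hζ hχ hω hc
    have hex : ∃ c : GQ → ZMod m, ∀ σ : GQ, σ (ω ^ j) = ζ ^ (c σ).val * ω ^ j := ⟨c, hcj⟩
    refine ⟨⟨j, hj⟩, ?_⟩
    have hF : F ⟨j, hj⟩ = hex.choose := dif_pos hex
    rw [hF]
    funext σ
    have h1 := hex.choose_spec σ
    rw [hcj σ] at h1
    have hω0 : ω ^ j ≠ 0 := pow_ne_zero _ (hω.ne_zero (by have := hl.pos; omega))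
    exact (ZMod.val_injective m
      (hζ.pow_inj (ZMod.val_lt _) (ZMod.val_lt _) (mul_right_cancel₀ hω0 h1))).symm
  refine ⟨(Set.finite_range F).subset hsub, ?_⟩
  calc {c | Coh.IsStrict l χ (In Ap) (unr p l) (vK Al l m ζ) c}.ncard
      ≤ (Set.range F).ncard := Set.ncard_le_ncard hsub (Set.finite_range F)
    _ = (F '' Set.univ).ncard := by rw [Set.image_univ]
    _ ≤ (Set.univ : Set (Fin l)).ncard := Set.ncard_image_le Set.finite_univ
    _ = l := by rw [Set.ncard_univ, Nat.card_eq_fintype_card, Fintype.card_fin]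

end Fermat.Agent.S15.Kum
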