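import Fermat.Agent.S15.Kum.Defs
import Fermat.Agent.LP.Frey.Unram
import Fermat.Agent.S13.InertiaVal

/-!
# S15-KUM, file Basic: valuations of `ℚ̄` above a prime `q`

(K1) the value group of the inertia field is `ℤ v(q)` (this is `LP.Frey.val_eq_zpow_of_inertia_fixed`).
-/

set_option autoImplicit false

namespace Fermat.Agent.S15.Kum

open scoped Pointwise

variable {q : ℕ} (A : ValuationSubring Qb)

theorem val_natCast_ne_zero (hq : q.Prime) : A.valuation (q : Qb) ≠ 0 := by
  exact (A.valuation.ne_zero_iff).2 (Nat.cast_ne_zero.2 hq.ne_zero)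

theorem val_natCast_lt_one (hA : A.LiesOverPrime q) : A.valuation (q : Qb) < 1 := by
  exact (A.mem_nonunits_iff).1 hA

/-- `v(q)` is not a torsion element of the value group. -/
theorem zpow_val_inj (hq : q.Prime) (hA : A.LiesOverPrime q) {k k' : ℤ}
    (h : A.valuation (q : Qb) ^ k = A.valuation (q : Qb) ^ k') : k = k' := by
  exact zpow_right_injective₀ (zero_lt_iff.2 (val_natCast_ne_zero A hq))
    (val_natCast_lt_one A hA).ne h

/-- (K1) -/
theorem val_fixed (hq : q.Prime) (hA : A.LiesOverPrime q) {c : Qb} (hc0 : c ≠ 0)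
    (hfix : ∀ σ ∈ In A, σ c = c) : ∃ k : ℤ, A.valuation c = A.valuation (q : Qb) ^ k :=
  Fermat.Agent.LP.Frey.val_eq_zpow_of_inertia_fixed hq A hA c hc0 hfix

/-- the valuation of a natural number. -/
theorem Basic_val_natCast (hq : q.Prime) (hA : A.LiesOverPrime q) {n : ℕ} (hn : n ≠ 0) :
    A.valuation (n : Qb) = A.valuation (q : Qb) ^ (padicValNat q n) := by
  have : Fact q.Prime := ⟨hq⟩
  obtain ⟨e, n', hn', rfl⟩ := Nat.exists_eq_pow_mul_and_not_dvd hn q hq.ne_one
  have hn0 : n' ≠ 0 := by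
    rintro rfl
    exact hn' (dvd_zero q)
  rw [padicValNat.mul (pow_ne_zero e hq.ne_zero) hn0, padicValNat.prime_pow,
    padicValNat.eq_zero_of_not_dvd hn', add_zero, Nat.cast_mul, Nat.cast_pow, map_mul, map_pow]
  have h1 := Fermat.Agent.S13.iv_val_intCast_eq_one A hq hA (n := (n' : ℤ))
    (by exact_mod_cast hn')
  rw [Int.cast_natCast] at h1
  rw [h1, mul_one]

/-- the valuation of a rational number. -/
theorem val_ratCast (hq : q.Prime) (hA : A.LiesOverPrime q) {a : ℚ} (ha : a ≠ 0) :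
    A.valuation ((a : ℚ) : Qb) = A.valuation (q : Qb) ^ (padicValRat q a) := by
  have hnum : a.num ≠ 0 := Rat.num_ne_zero.2 ha
  have h1 : A.valuation ((a.num : ℤ) : Qb) = A.valuation (q : Qb) ^ (padicValInt q a.num : ℤ) := by
    have h2 : A.valuation ((a.num : ℤ) : Qb) = A.valuation ((a.num.natAbs : ℕ) : Qb) := by
      rcases Int.natAbs_eq a.num with h | h
      · conv_lhs => rw [h]
        rw [Int.cast_natCast]
      · conv_lhs => rw [h]
        rw [Int.cast_neg, Valuation.map_neg, Int.cast_natCast]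
    rw [h2, Basic_val_natCast A hq hA (Int.natAbs_ne_zero.2 hnum), zpow_natCast]
    rfl
  rw [Rat.cast_def, map_div₀, h1, Basic_val_natCast A hq hA a.den_nz, padicValRat,
    zpow_sub₀ (val_natCast_ne_zero A hq), zpow_natCast, zpow_natCast]

/-- elements of the decomposition group preserve `v = k v(q)`. -/
theorem val_map_eq_zpow (hq : q.Prime) {φ : GQ} (hφ : φ ∈ A.decompositionSubgroup ℚ) {x : Qb}
    {k : ℤ} (h : A.valuation x = A.valuation (q : Qb) ^ k) :
    A.valuation (φ x) = A.valuation (q : Qb) ^ k := by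
  have hv0 : A.valuation (q : Qb) ≠ 0 := val_natCast_ne_zero A hq
  have hq0 : (q : Qb) ≠ 0 := Nat.cast_ne_zero.2 hq.ne_zero
  have hstab : ∀ z : Qb, z ∈ A → φ z ∈ A := by
    intro z hz
    have hg : φ • A = A := MulAction.mem_stabilizer_iff.1 hφ
    have h1 := ValuationSubring.smul_mem_pointwise_smul_iff (g := φ) (S := A) (x := z)
    rw [hg] at h1
    exact h1.2 hz
  set u : Qb := x / (q : Qb) ^ k with hu
  have hvu : A.valuation u = 1 := by
    rw [hu, map_div₀, map_zpow₀, h, div_self (zpow_ne_zero k hv0)]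
  have hu1 : u ∈ A := (A.valuation_le_one_iff u).1 hvu.le
  have hu2 : u⁻¹ ∈ A := (A.valuation_le_one_iff _).1 (by rw [map_inv₀, hvu, inv_one])
  have hφu : φ u = φ x / (q : Qb) ^ k := by
    rw [hu, map_div₀, map_zpow₀, map_natCast]
  have h1 : A.valuation (φ u) ≤ 1 := (A.valuation_le_one_iff _).2 (hstab u hu1)
  have h2 : A.valuation (φ u)⁻¹ ≤ 1 := by
    rw [← map_inv₀]
    exact (A.valuation_le_one_iff _).2 (hstab _ hu2)
  have hu0 : u ≠ 0 := by
    intro h0
    rw [h0, map_zero] at hvu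
    exact zero_ne_one hvu
  have hφu0 : φ u ≠ 0 := (map_ne_zero φ).2 hu0
  rw [map_inv₀, inv_le_one₀ (zero_lt_iff.2 ((A.valuation.ne_zero_iff).2 hφu0))] at h2
  have h3 : A.valuation (φ u) = 1 := le_antisymm h1 h2
  rw [hφu, map_div₀, map_zpow₀, div_eq_one_iff_eq (zpow_ne_zero k hv0)] at h3
  exact h3

/-- an element of `ℚ̄` fixed by `G_ℚ` is rational. -/
theorem exists_rat_of_fixed {x : Qb} (h : ∀ σ : GQ, σ x = x) : ∃ a : ℚ, ((a : ℚ) : Qb) = x := by
  have hcl : IsAlgClosure ℚ Qb := ⟨inferInstance, AlgebraicClosure.isAlgebraic ℚ⟩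
  have hgal : IsGalois ℚ Qb := IsAlgClosure.isGalois ℚ Qb
  have hmem : x ∈ (⊥ : IntermediateField ℚ Qb) := (InfiniteGalois.mem_bot_iff_fixed x).2 h
  obtain ⟨a, rfl⟩ := IntermediateField.mem_bot.1 hmem
  exact ⟨a, (eq_ratCast (algebraMap ℚ Qb) a).symm⟩

end Fermat.Agent.S15.Kum
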