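import Fermat.Agent.S15.Kum.Basic

/-!
# S15-KUM, file Omega: the cyclotomic character modulo `l` on the inertia group at `l`

`m = l ^ r`, `r ≥ 1`.
* `l = 2`: `χ γ` is a unit of `ZMod (2^r)` (`χ γ * χ γ⁻¹ = 1`), so `χ γ = 1 + 2 t`, and `χ γ * a = a + t * (2 a) = a`.
* `l` odd: `ξ := ζ ^ (l^(r-1))` is a primitive `l`-th root of unity.  If all `σ ∈ In A` fix `ξ` then `v (1 - ξ) = v(l)^i` (`val_fixed`), but
  `∏_{0<j<l} (1 - ξ^j) = l` and `(1 - ξ^j)/(1 - ξ)` is a unit of `A` (it and its inverse are integral over `ℤ`), so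
  `v(l) = v(1-ξ)^(l-1) = v(l)^(i (l-1))`, `i (l - 1) = 1` (`zpow_val_inj`), `l = 2`.  So there is `σ ∈ In A` with `σ ξ ≠ ξ`, i.e. `l ∤ (χ σ).val - 1`, i.e.
  `χ σ - 1` is a unit of `ZMod (l^r)`; `χ σ * a = a` then gives `a = 0`.
-/

set_option autoImplicit false

namespace Fermat.Agent.S15.Kum

variable {l m : ℕ} [NeZero m] {A : ValuationSubring Qb} {ζ : Qb} {χ : GQ →* ZMod m}

theorem Omega_val_le (A : ValuationSubring Qb) (hl : 0 < l) {ξ μ : Qb} (hξ : IsPrimitiveRoot ξ l)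
    (hμ : IsPrimitiveRoot μ l) : A.valuation (1 - μ) ≤ A.valuation (1 - ξ) := by
  have : NeZero l := ⟨hl.ne'⟩
  obtain ⟨j, -, -, rfl⟩ := (hξ.isPrimitiveRoot_iff).mp hμ
  rw [← mul_neg_geom_sum, map_mul]
  have hξA : ξ ∈ A := Fermat.Agent.Lib.Frobenius.isIntegral_mem A (hξ.isIntegral hl)
  have h1 : A.valuation (∑ i ∈ Finset.range j, ξ ^ i) ≤ 1 := by
    rw [ValuationSubring.valuation_le_one_iff]
    exact sum_mem fun i _ => pow_mem hξA i
  exact mul_le_of_le_one_right' h1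

theorem Omega_val_eq (A : ValuationSubring Qb) (hl : 0 < l) {ξ μ : Qb} (hξ : IsPrimitiveRoot ξ l)
    (hμ : IsPrimitiveRoot μ l) : A.valuation (1 - μ) = A.valuation (1 - ξ) :=
  le_antisymm (Omega_val_le A hl hξ hμ) (Omega_val_le A hl hμ hξ)

theorem Omega_val_prime (A : ValuationSubring Qb) (hl : l.Prime) {ξ : Qb}
    (hξ : IsPrimitiveRoot ξ l) : A.valuation (l : Qb) = A.valuation (1 - ξ) ^ (l - 1) := by
  have : Fact l.Prime := ⟨hl⟩
  have h1 : (l : Qb) = ∏ μ ∈ primitiveRoots l Qb, (1 - μ) := by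
    rw [← Polynomial.eval_one_cyclotomic_prime (R := Qb) (p := l),
      Polynomial.cyclotomic_eq_prod_X_sub_primitiveRoots hξ, Polynomial.eval_prod]
    simp
  rw [h1, map_prod, Finset.prod_congr rfl (fun μ hμ =>
    Omega_val_eq A hl.pos hξ ((mem_primitiveRoots hl.pos).mp hμ)), Finset.prod_const,
    hξ.card_primitiveRoots, Nat.totient_prime hl]

/-- a primitive `l`-th root of unity is not fixed by the inertia group at `l` (`l` odd). -/
theorem exists_inertia_moves (hl : l.Prime) (hl2 : l ≠ 2) (hA : A.LiesOverPrime l) {ξ : Qb}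
    (hξ : IsPrimitiveRoot ξ l) : ∃ σ ∈ In A, σ ξ ≠ ξ := by
  by_contra hcon
  have hfix : ∀ σ ∈ In A, σ ξ = ξ := by
    intro σ hσ
    by_contra h
    exact hcon ⟨σ, hσ, h⟩
  have hne : (1 : Qb) - ξ ≠ 0 := by
    rw [sub_ne_zero]
    exact (hξ.ne_one hl.one_lt).symm
  obtain ⟨i, hi⟩ := val_fixed A hl hA hne (fun σ hσ => by rw [map_sub, map_one, hfix σ hσ])
  have h1 := Omega_val_prime A hl hξ
  rw [hi, ← zpow_natCast, ← zpow_mul] at h1
  have h2 : (1 : ℤ) = i * ((l - 1 : ℕ) : ℤ) := by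
    apply zpow_val_inj A hl hA
    rw [zpow_one]
    exact h1
  have h3 : ((l - 1 : ℕ) : ℤ) ∣ 1 := ⟨i, by rw [h2]; ring⟩
  have h4 := Int.le_of_dvd one_pos h3
  have h5 := hl.two_le
  omega

theorem omega (hl : l.Prime) (hA : A.LiesOverPrime l) {r : ℕ} (hr : 0 < r) (hm : m = l ^ r)
    (hζ : IsPrimitiveRoot ζ m) (hχ : IsCyc ζ χ) :
    (∀ γ : GQ, ∀ a : ZMod m, l • a = 0 → χ γ * a = a) ∨
      (∃ σ ∈ In A, ∀ a : ZMod m, l • a = 0 → χ σ * a = a → a = 0) := by
  by_cases hl2 : l = 2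
  · left
    intro γ a ha
    have hu : IsUnit (χ γ) := (Group.isUnit γ).map χ
    rw [← ZMod.natCast_zmod_val (χ γ), ZMod.isUnit_iff_coprime] at hu
    have hodd : Odd (χ γ).val := by
      rw [← Nat.coprime_two_right]
      refine Nat.Coprime.coprime_dvd_right ?_ hu
      rw [hm, hl2]
      exact dvd_pow_self 2 hr.ne'
    obtain ⟨t, ht⟩ := hodd
    rw [← ZMod.natCast_zmod_val (χ γ), ht]
    rw [hl2, nsmul_eq_mul] at ha
    push_cast at ha ⊢
    linear_combination (t : ZMod m) * ha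
  · right
    have hmpos : 0 < m := Nat.pos_of_ne_zero (NeZero.ne m)
    have hξ : IsPrimitiveRoot (ζ ^ (l ^ (r - 1))) l := by
      apply hζ.pow hmpos
      rw [hm, ← pow_succ]
      congr 1
      omega
    obtain ⟨σ, hσ, hne⟩ := exists_inertia_moves hl hl2 hA hξ
    refine ⟨σ, hσ, fun a _ ha => ?_⟩
    have hξ0 : ζ ^ (l ^ (r - 1)) ≠ 0 := hξ.ne_zero hl.ne_zero
    have hnd : ¬ (l : ℤ) ∣ ((χ σ).val : ℤ) - 1 := by
      intro hd
      apply hne
      rw [← hξ.zpow_eq_one_iff_dvd, zpow_sub₀ hξ0, zpow_one, zpow_natCast,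
        div_eq_one_iff_eq hξ0] at hd
      rw [map_pow, hχ σ, ← pow_mul, mul_comm, pow_mul]
      exact hd
    have hu : IsUnit (χ σ - 1) := by
      have h1 : IsUnit (((((χ σ).val : ℤ) - 1 : ℤ)) : ZMod m) := by
        rw [ZMod.coe_int_isUnit_iff_isCoprime]
        have hm' : (m : ℤ) = (l : ℤ) ^ r := by exact_mod_cast hm
        rw [hm']
        apply IsCoprime.pow_left
        rw [Prime.coprime_iff_not_dvd (Nat.prime_iff_prime_int.mp hl)]
        exact hnd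
      push_cast at h1
      rwa [ZMod.natCast_zmod_val] at h1
    have h2 : (χ σ - 1) * a = 0 := by linear_combination ha
    exact (hu.mul_right_eq_zero).mp h2

end Fermat.Agent.S15.Kum
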