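import Fermat.Agent.S15.Kum.Tame

/-!
# S15-KUM, file TameGen: (TI), general form: the pro-`l` quotient of the inertia group at `p ≠ l` is procyclic

`mem_zmultiples`: `B := M ⧸ zmultiples (f τ)`, `g := mk ∘ f`.  If `g σ₀ ≠ 0`: let `C := B ⧸ l B`.  The subgroup generated by the image
of `g` is killed by `l^k`; if `g σ₀ ∈ l * (image)` always, iterate...  Cleanest: let `S ≤ B` be the subgroup generated by `g (In A)`
(= its image, `g` is additive on `In A`); `l^k S = 0`, `S ≠ 0` => `l S ≠ S`; `S ⧸ l S` is a nonzero `ZMod l`-vector space, take a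
linear form `λ` with `λ ≠ 0`; `λ ∘ mk ∘ g` is additive on `In A`, of finite level, kills `τ`, and is not zero: contradiction with
`IsTameGen.eq_zero`.
-/

set_option autoImplicit false

namespace Fermat.Agent.S15.Kum

variable {p l : ℕ} {A : ValuationSubring Qb}

theorem TameGen_dual {l : ℕ} [Fact l.Prime] {V : Type*} [AddCommGroup V] [Module (ZMod l) V]
    {v : V} (h : ∀ φ : V →ₗ[ZMod l] ZMod l, φ v = 0) : v = 0 :=
  (Module.forall_dual_apply_eq_zero_iff (ZMod l) v).1 h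

/-- additive characters with values in `ℤ/l` separate the points of a group killed by `l`. -/
theorem TameGen_addHom {l : ℕ} (hl : l.Prime) {V : Type*} [AddCommGroup V]
    (hV : ∀ x : V, l • x = 0) {v : V} (h : ∀ φ : V →+ ZMod l, φ v = 0) : v = 0 := by
  have : Fact l.Prime := ⟨hl⟩
  let _ : Module (ZMod l) V := AddCommGroup.zmodModule hV
  exact TameGen_dual (l := l) fun φ => h φ.toAddMonoidHom

/-- one step: `f σ ∈ ℤ f τ + l f (In A)`. -/
theorem IsTameGen.TameGen_step (hp : p.Prime) (hl : l.Prime) (hlp : l ≠ p)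
    (hA : A.LiesOverPrime p) {τ : GQ} (hτ : IsTameGen A p l τ) {M : Type*} [AddCommGroup M]
    (f : GQ → M) (hadd : ∀ σ ∈ In A, ∀ σ' ∈ In A, f (σ * σ') = f σ + f σ')
    (hlev : HasLevel (In A) f) :
    ∀ σ ∈ In A, ∃ n : ℤ, ∃ σ' ∈ In A, f σ = n • f τ + l • f σ' := by
  classical
  let F : Additive (In A) →+ M :=
    AddMonoidHom.mk' (fun σ => f ((Additive.toMul σ : In A) : GQ))
      (fun σ σ' => hadd _ (Additive.toMul σ).2 _ (Additive.toMul σ').2)
  let T : AddSubgroup M :=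
    AddSubgroup.zmultiples (f τ) ⊔ (F.range.map (nsmulAddMonoidHom l))
  let G : Additive (In A) →+ M ⧸ T := (QuotientAddGroup.mk' T).comp F
  have hkill : ∀ x : G.range, l • x = 0 := by
    rintro ⟨_, σ, rfl⟩
    apply Subtype.ext
    show l • (QuotientAddGroup.mk' T (F σ)) = 0
    rw [← map_nsmul]
    refine (QuotientAddGroup.eq_zero_iff _).2 ?_
    exact (le_sup_right : _ ≤ T) ⟨F σ, ⟨σ, rfl⟩, rfl⟩
  have hzero : ∀ σ : Additive (In A), G.rangeRestrict σ = 0 := by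
    intro σ₀
    refine TameGen_addHom hl hkill ?_
    intro lam
    let h : GQ → ZMod l := fun σ =>
      if hσ : σ ∈ In A then lam (G.rangeRestrict (Additive.ofMul (⟨σ, hσ⟩ : In A))) else 0
    have hh : ∀ (σ : GQ) (hσ : σ ∈ In A),
        h σ = lam (G.rangeRestrict (Additive.ofMul (⟨σ, hσ⟩ : In A))) := fun σ hσ => dif_pos hσ
    have h1 : ∀ σ ∈ In A, ∀ σ' ∈ In A, h (σ * σ') = h σ + h σ' := by
      intro σ hσ σ' hσ'
      rw [hh _ ((In A).mul_mem hσ hσ'), hh _ hσ, hh _ hσ', ← map_add, ← map_add]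
      rfl
    have hz : ∀ (σ : GQ) (hσ : σ ∈ In A), f σ ∈ T → h σ = 0 := by
      intro σ hσ hT
      rw [hh _ hσ]
      have : G.rangeRestrict (Additive.ofMul (⟨σ, hσ⟩ : In A)) = 0 :=
        Subtype.ext ((QuotientAddGroup.eq_zero_iff _).2 hT)
      rw [this, map_zero]
    have h2 : HasLevel (In A) h := by
      obtain ⟨F₀, hF₀, hf⟩ := hlev
      refine ⟨F₀, hF₀, fun σ hσ hσF => hz σ hσ ?_⟩
      rw [hf σ hσ hσF]
      exact T.zero_mem
    have h3 : h τ = 0 :=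
      hz τ hτ.1 ((le_sup_left : _ ≤ T) (AddSubgroup.mem_zmultiples _))
    have h4 := hτ.eq_zero hp hl hlp hA h h1 h2 h3 _ (Additive.toMul σ₀).2
    rw [hh _ (Additive.toMul σ₀).2] at h4
    exact h4
  intro σ hσ
  have h5 : f σ ∈ T := by
    have := congrArg Subtype.val (hzero (Additive.ofMul (⟨σ, hσ⟩ : In A)))
    exact (QuotientAddGroup.eq_zero_iff _).1 this
  obtain ⟨y, hy, z, hz, hyz⟩ := AddSubgroup.mem_sup.1 h5
  obtain ⟨n, rfl⟩ := AddSubgroup.mem_zmultiples_iff.1 hy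
  obtain ⟨_, ⟨σ', rfl⟩, rfl⟩ := hz
  exact ⟨n, _, (Additive.toMul σ').2, hyz.symm⟩

/-- (TI): the image of a homomorphism of finite level `In A → M` (`M` of exponent `l^k`) is generated by the image of `τ`. -/
theorem IsTameGen.mem_zmultiples (hp : p.Prime) (hl : l.Prime) (hlp : l ≠ p)
    (hA : A.LiesOverPrime p) {τ : GQ} (hτ : IsTameGen A p l τ) {M : Type*} [AddCommGroup M]
    (f : GQ → M) (hadd : ∀ σ ∈ In A, ∀ σ' ∈ In A, f (σ * σ') = f σ + f σ')
    (hlev : HasLevel (In A) f) (k : ℕ) (hk : ∀ σ ∈ In A, l ^ k • f σ = 0) :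
    ∀ σ ∈ In A, f σ ∈ AddSubgroup.zmultiples (f τ) := by
  have hstep := hτ.TameGen_step hp hl hlp hA f hadd hlev
  have hind : ∀ j : ℕ, ∀ σ ∈ In A, ∃ n : ℤ, ∃ σ' ∈ In A, f σ = n • f τ + l ^ j • f σ' := by
    intro j
    induction j with
    | zero => exact fun σ hσ => ⟨0, σ, hσ, by rw [zero_smul, zero_add, pow_zero, one_smul]⟩
    | succ j ih =>
      intro σ hσ
      obtain ⟨n, σ', hσ', h1⟩ := ih σ hσ
      obtain ⟨n', σ'', hσ'', h2⟩ := hstep σ' hσ'
      refine ⟨n + (l ^ j : ℕ) * n', σ'', hσ'', ?_⟩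
      rw [h1, h2, smul_add, add_smul, add_assoc, mul_smul, natCast_zsmul, pow_succ, mul_smul]
  intro σ hσ
  obtain ⟨n, σ', hσ', h1⟩ := hind k σ hσ
  rw [h1, hk σ' hσ', add_zero]
  exact AddSubgroup.zsmul_mem _ (AddSubgroup.mem_zmultiples _) n

/-- two homomorphisms which agree at `τ` agree on `In A`. -/
theorem IsTameGen.eq_of_eq (hp : p.Prime) (hl : l.Prime) (hlp : l ≠ p)
    (hA : A.LiesOverPrime p) {τ : GQ} (hτ : IsTameGen A p l τ) {M : Type*} [AddCommGroup M]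
    (f f' : GQ → M) (hadd : ∀ σ ∈ In A, ∀ σ' ∈ In A, f (σ * σ') = f σ + f σ')
    (hadd' : ∀ σ ∈ In A, ∀ σ' ∈ In A, f' (σ * σ') = f' σ + f' σ')
    (hlev : HasLevel (In A) f) (hlev' : HasLevel (In A) f') (k : ℕ)
    (hk : ∀ σ ∈ In A, l ^ k • f σ = 0) (hk' : ∀ σ ∈ In A, l ^ k • f' σ = 0) (h : f τ = f' τ) :
    ∀ σ ∈ In A, f σ = f' σ := by
  have hlev'' : HasLevel (In A) (fun σ => f σ - f' σ) := by
    obtain ⟨F, hF, hf⟩ := hlev
    obtain ⟨F', hF', hf'⟩ := hlev'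
    refine ⟨F ⊔ F', IntermediateField.finiteDimensional_sup F F', fun σ hσ hσF => ?_⟩
    have h1 : σ ∈ F.fixingSubgroup := by
      rw [IntermediateField.mem_fixingSubgroup_iff] at hσF ⊢
      exact fun x hx => hσF x ((le_sup_left : F ≤ F ⊔ F') hx)
    have h2 : σ ∈ F'.fixingSubgroup := by
      rw [IntermediateField.mem_fixingSubgroup_iff] at hσF ⊢
      exact fun x hx => hσF x ((le_sup_right : F' ≤ F ⊔ F') hx)
    show f σ - f' σ = 0
    rw [hf σ hσ h1, hf' σ hσ h2, sub_zero]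
  have := hτ.mem_zmultiples hp hl hlp hA (fun σ => f σ - f' σ)
    (fun σ hσ σ' hσ' => by
      show f (σ * σ') - f' (σ * σ') = f σ - f' σ + (f σ' - f' σ')
      rw [hadd σ hσ σ' hσ', hadd' σ hσ σ' hσ']
      abel)
    hlev'' k (fun σ hσ => by
      show l ^ k • (f σ - f' σ) = 0
      rw [_root_.smul_sub, hk σ hσ, hk' σ hσ, sub_zero])
  intro σ hσ
  have h1 := this σ hσ
  simp only [h, sub_self, AddSubgroup.zmultiples_zero_eq_bot, AddSubgroup.mem_bot] at h1
  exact sub_eq_zero.1 h1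

/-- (TI) for unipotent actions: if `(σ - 1)(σ' - 1) = 0` on `G` for `σ, σ' ∈ In A` then `σ - 1 = n (τ - 1)`. -/
theorem IsTameGen.smul_sub (hp : p.Prime) (hl : l.Prime) (hlp : l ≠ p)
    (hA : A.LiesOverPrime p) {τ : GQ} (hτ : IsTameGen A p l τ) {G : Type*} [AddCommGroup G]
    [DistribMulAction GQ G]
    (hlev : ∃ F : IntermediateField ℚ Qb, FiniteDimensional ℚ F ∧
      ∀ σ ∈ In A, σ ∈ F.fixingSubgroup → ∀ g : G, σ • g = g)
    (k : ℕ) (hk : ∀ g : G, l ^ k • g = 0)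
    (hun : ∀ σ ∈ In A, ∀ σ' ∈ In A, ∀ g : G, σ • (σ' • g - g) = σ' • g - g) :
    ∀ σ ∈ In A, ∃ n : ℤ, ∀ g : G, σ • g - g = n • (τ • g - g) := by
  have := hτ.mem_zmultiples hp hl hlp hA (M := G → G) (fun σ g => σ • g - g)
    (fun σ hσ σ' hσ' => by
      funext g
      show (σ * σ') • g - g = (σ • g - g) + (σ' • g - g)
      have h1 := hun σ hσ σ' hσ' g
      rw [_root_.smul_sub, ← mul_smul] at h1
      have h2 : (σ * σ') • g = σ' • g - g + σ • g := sub_eq_iff_eq_add.1 h1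
      rw [h2]
      abel)
    (by
      obtain ⟨F, hF, hf⟩ := hlev
      refine ⟨F, hF, fun σ hσ hσF => ?_⟩
      funext g
      show σ • g - g = 0
      rw [hf σ hσ hσF g, sub_self])
    k (fun σ hσ => by
      funext g
      exact hk _)
  intro σ hσ
  obtain ⟨n, hn⟩ := AddSubgroup.mem_zmultiples_iff.1 (this σ hσ)
  exact ⟨n, fun g => (congrFun hn g).symm⟩

end Fermat.Agent.S15.Kum
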