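import Fermat.Agent.S15.Kum.ValConj
import Fermat.Agent.S15.Kum.Omega
import Fermat.Agent.S15.Kum.Mink
import Fermat.Agent.S15.Kum.B2
import Fermat.Agent.S15.Kum.TameGen

/-!
# S15-KUM, file Export: the arithmetic half of `Coh.Setup` for `Γ = G_ℚ`

`mkSetup` builds a `Coh.Setup GQ G l m` from the module-theoretic fields only.
-/

set_option autoImplicit false

namespace Fermat.Agent.S15.Kum

/-- existence of the cyclotomic character modulo `m`. -/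
theorem exists_isCyc {m : ℕ} [NeZero m] {ζ : Qb} (hζ : IsPrimitiveRoot ζ m) :
    ∃ χ : GQ →* ZMod m, IsCyc ζ χ :=
  ⟨(Units.coeHom (ZMod m)).comp (hζ.autToPow ℚ), fun σ => (hζ.autToPow_spec ℚ σ).symm⟩

/-- the cyclotomic character is unique. -/
theorem IsCyc.unique {m : ℕ} [NeZero m] {ζ : Qb} (hζ : IsPrimitiveRoot ζ m) {χ χ' : GQ →* ZMod m}
    (h : IsCyc ζ χ) (h' : IsCyc ζ χ') : χ = χ' := by
  ext σ
  exact ZMod.val_injective m
    (hζ.pow_inj (ZMod.val_lt _) (ZMod.val_lt _) ((h σ).symm.trans (h' σ)))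

/-- it does not depend on `ζ`. -/
theorem IsCyc.of_pow_eq_one {m : ℕ} [NeZero m] {ζ : Qb} (hζ : IsPrimitiveRoot ζ m)
    {χ : GQ →* ZMod m} (h : IsCyc ζ χ) {ξ : Qb} (hξ : ξ ^ m = 1) : IsCyc ξ χ := by
  obtain ⟨i, -, rfl⟩ := hζ.eq_pow_of_pow_eq_one hξ
  intro σ
  rw [map_pow, h σ, ← pow_mul, ← pow_mul, mul_comm]

variable {p l m : ℕ} [NeZero m]

/-- The arithmetic half of `Coh.Setup`. -/
noncomputable def mkSetup (hp : p.Prime) (hl : l.Prime) {Ap Al : ValuationSubring Qb}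
    (hAp : Ap.LiesOverPrime p) (hAl : Al.LiesOverPrime l) {r : ℕ} (hr : 0 < r) (hm : m = l ^ r)
    {ζ : Qb} (hζ : IsPrimitiveRoot ζ m) {χ : GQ →* ZMod m} (hχ : IsCyc ζ χ)
    {φ : GQ} (hφ : φ ∈ Al.decompositionSubgroup ℚ)
    {G : Type*} [AddCommGroup G] [DistribMulAction GQ G] [Module (ZMod m) G] (M : AddSubgroup G)
    (cont : ∀ g : G, IsLocallyConstant (fun σ : GQ => σ • g))
    (φ_M : ∀ x ∈ M, φ • x ∈ M)
    (Il_M : ∀ σ ∈ In Al, ∀ x ∈ M, σ • x = χ σ • x)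
    (Il_quot : ∀ σ ∈ In Al, ∀ g : G, σ • g - g ∈ M) : Coh.Setup GQ G l m where
  Ip := In Ap
  Il := In Al
  U := unr p l
  φ := φ
  χ := χ
  M := M
  v := vK Al l m ζ
  cont := cont
  conj_mem := conj_mem hφ
  φ_M := φ_M
  Il_M := Il_M
  Il_quot := Il_quot
  v_congr := vK_congr
  v_add := vK_add hl hAl hζ.pow_eq_one hχ
  v_cob := vK_cob hl hAl hζ.pow_eq_one hχ
  v_conj := vK_conj hl hAl hζ.pow_eq_one hχ hφ
  omega := omega hl hAl hr hm hζ hχ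
  B1 := fun c hlc hadd _ hIp hIl hU => B1 hp hl Ap Al hAp hAl c hlc hadd hIp hIl hU
  B2 := B2 hp hl hAp hAl hr hm hζ hχ

end Fermat.Agent.S15.Kum
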