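import Fermat.Agent.S15.Kum.Defs
import Fermat.Agent.S55.SREF.H90

/-!
# S15-KUM, file H90: Hilbert 90 on an arbitrary subgroup of `G_ℚ`, for cocycles of finite level

Copy of the proof of `S55.SREF.abs_hilbert90` (Fermat/Agent/S55/SREF/H90.lean), which never uses that the subgroup is
`L.fixingSubgroup`:  `T z := ∑_{τ : F →ₐ[ℚ] ℚ̄} f' τ * τ z`, where `f' τ = f ρ` if `τ = ρ|F` with `ρ ∈ H` and `0` otherwise
(well defined: `f (ρ ρ') = f ρ * ρ (f ρ') = f ρ` for `ρ' ∈ H ∩ Gal(ℚ̄/F)`); Dedekind: `T z ≠ 0` for some `z ∈ F`;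
`σ (T z) = (f σ)⁻¹ * T z` for `σ ∈ H`; `β := (T z)⁻¹`.
-/

set_option autoImplicit false

namespace Fermat.Agent.S15.Kum

open Fermat.Agent.S55.SREF (H90_res H90_res_eq_iff H90_linearIndependent)

theorem hilbert90 (H : Subgroup GQ) (f : GQ → Qb) (h0 : ∀ σ ∈ H, f σ ≠ 0)
    (hc : ∀ σ ∈ H, ∀ τ ∈ H, f (σ * τ) = f σ * σ (f τ))
    (F : IntermediateField ℚ Qb) (hF : FiniteDimensional ℚ F)
    (hlev : ∀ σ ∈ H, σ ∈ F.fixingSubgroup → f σ = 1) :
    ∃ β : Qb, β ≠ 0 ∧ ∀ σ ∈ H, σ β = f σ * β := by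
  classical
  have : FiniteDimensional ℚ F := hF
  -- `f` factors through the restriction to `F`
  have hfac : ∀ ρ ρ' : H, H90_res F ρ = H90_res F ρ' → f ρ = f ρ' := by
    intro ρ ρ' h
    have h1 : (ρ : GQ)⁻¹ * ρ' ∈ F.fixingSubgroup := (H90_res_eq_iff F ρ ρ').mp h
    have h2 : (ρ : GQ)⁻¹ * ρ' ∈ H := H.mul_mem (H.inv_mem ρ.2) ρ'.2
    have h3 := hc ρ ρ.2 _ h2
    rw [mul_inv_cancel_left, hlev _ h2 h1, map_one, mul_one] at h3
    exact h3.symm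
  let f' : (F →ₐ[ℚ] Qb) → Qb := fun τ =>
    if h : ∃ ρ : H, H90_res F ρ = τ then f h.choose else 0
  have hf' : ∀ ρ : H, f' (H90_res F ρ) = f ρ := by
    intro ρ
    have h : ∃ ρ' : H, H90_res F ρ' = H90_res F ρ := ⟨ρ, rfl⟩
    have h1 : f' (H90_res F ρ) = f h.choose := dif_pos h
    rw [h1, hfac _ _ h.choose_spec]
  have hf'0 : ∀ τ, (¬ ∃ ρ : H, H90_res F ρ = τ) → f' τ = 0 := fun τ h => dif_neg h
  let T : F → Qb := fun z => ∑ τ : F →ₐ[ℚ] Qb, f' τ * τ z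
  -- nonvanishing
  obtain ⟨z, hz⟩ : ∃ z, T z ≠ 0 := by
    by_contra hcon
    push Not at hcon
    have h1 : ∑ τ : F →ₐ[ℚ] Qb, f' τ • (τ : F → Qb) = 0 := by
      funext z
      simpa [T] using hcon z
    have h2 := (Fintype.linearIndependent_iff.mp (H90_linearIndependent F)) f' h1
      (H90_res F ((1 : H) : GQ))
    rw [hf'] at h2
    exact h0 _ (1 : H).2 h2
  -- transformation
  have htr : ∀ σ : H, T z = f σ * (σ : GQ) (T z) := by
    intro σ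
    let e : (F →ₐ[ℚ] Qb) ≃ (F →ₐ[ℚ] Qb) :=
      { toFun := fun τ => ((σ : GQ) : Qb →ₐ[ℚ] Qb).comp τ
        invFun := fun τ => (((σ : GQ)⁻¹ : GQ) : Qb →ₐ[ℚ] Qb).comp τ
        left_inv := fun τ => by
          ext x
          exact (σ : GQ).symm_apply_apply _
        right_inv := fun τ => by
          ext x
          exact (σ : GQ).apply_symm_apply _ }
    have he : ∀ τ x, e τ x = (σ : GQ) (τ x) := fun _ _ => rfl
    have hres : ∀ ρ : H, e (H90_res F ρ) = H90_res F ((σ * ρ : H) : GQ) :=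
      fun ρ => rfl
    have hkey : ∀ τ, f' (e τ) = f σ * (σ : GQ) (f' τ) := by
      intro τ
      by_cases h : ∃ ρ : H, H90_res F ρ = τ
      · obtain ⟨ρ, rfl⟩ := h
        rw [hres, hf', hf', Subgroup.coe_mul, hc σ σ.2 ρ ρ.2]
      · have h' : ¬ ∃ ρ : H, H90_res F ρ = e τ := by
          rintro ⟨ρ, hρ⟩
          apply h
          refine ⟨σ⁻¹ * ρ, ?_⟩
          have h3 : e (H90_res F ((σ⁻¹ * ρ : H) : GQ)) = e τ := by
            rw [hres, mul_inv_cancel_left, hρ]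
          exact e.injective h3
        rw [hf'0 _ h, hf'0 _ h', map_zero, mul_zero]
    calc T z = ∑ τ : F →ₐ[ℚ] Qb, f' (e τ) * (e τ) z := (Equiv.sum_comp e _).symm
      _ = ∑ τ : F →ₐ[ℚ] Qb, f σ * ((σ : GQ) (f' τ * τ z)) := by
          refine Finset.sum_congr rfl fun τ _ => ?_
          rw [hkey, he, map_mul]
          ring
      _ = f σ * (σ : GQ) (T z) := by
          rw [← Finset.mul_sum, map_sum]
  refine ⟨(T z)⁻¹, inv_ne_zero hz, fun σ hσ => ?_⟩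
  have h1 := htr ⟨σ, hσ⟩
  have h1' : T z = f σ * σ (T z) := h1
  have h2 : σ (T z) ≠ 0 := by
    intro h
    rw [h, mul_zero] at h1'
    exact hz h1'
  rw [map_inv₀]
  field_simp
  rw [mul_comm]
  exact h1'

theorem H90_pow_eq {m : ℕ} {ζ : Qb} (hζ : ζ ^ m = 1) {a b : ℕ}
    (h : (a : ZMod m) = (b : ZMod m)) : ζ ^ a = ζ ^ b := by
  rw [pow_eq_pow_mod a hζ, pow_eq_pow_mod b hζ, (ZMod.natCast_eq_natCast_iff' a b m).mp h]

/-- Kummer generator of a `χ`-twisted cocycle of finite level: `f σ := ζ ^ c σ` is a cocycle. -/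
theorem exists_kummer_gen {m : ℕ} [NeZero m] {ζ : Qb} (hζ : ζ ^ m = 1) {χ : GQ →* ZMod m}
    (hχ : IsCyc ζ χ) (I : Subgroup GQ) (c : GQ → ZMod m)
    (hc : ∀ σ ∈ I, ∀ τ ∈ I, c (σ * τ) = c σ + χ σ * c τ) (hlev : HasLevel I c) :
    ∃ β : Qb, β ≠ 0 ∧ ∀ σ ∈ I, σ β = ζ ^ (c σ).val * β := by
  obtain ⟨F, hF, hFc⟩ := hlev
  have hζ0 : ζ ≠ 0 := by
    rintro rfl
    rw [zero_pow (NeZero.ne m)] at hζ
    exact zero_ne_one hζ
  refine hilbert90 I (fun σ => ζ ^ (c σ).val) (fun σ _ => pow_ne_zero _ hζ0) ?_ F hF ?_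
  · intro σ hσ τ hτ
    show ζ ^ (c (σ * τ)).val = ζ ^ (c σ).val * σ (ζ ^ (c τ).val)
    rw [map_pow, hχ σ, ← pow_mul, ← pow_add, hc σ hσ τ hτ]
    apply H90_pow_eq hζ
    push_cast
    rw [ZMod.natCast_zmod_val, ZMod.natCast_zmod_val, ZMod.natCast_zmod_val,
      ZMod.natCast_zmod_val]
  · intro σ hσ hσF
    show ζ ^ (c σ).val = 1
    rw [hFc σ hσ hσF, ZMod.val_zero, pow_zero]

end Fermat.Agent.S15.Kum
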