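import Fermat.Agent.S15.Kum.Defs

/-!
# S15-KUM, file Level: locally constant functions have a finite level

Krull topology: a neighbourhood of `1` in `G_ℚ` contains `F.fixingSubgroup` for some finite `F`
(`krullTopology_mem_nhds_one_iff`); no compactness is needed, only local constancy at `1`.
-/

set_option autoImplicit false

namespace Fermat.Agent.S15.Kum

theorem hasLevel_of_isLocallyConstant {M : Type*} [Zero M] (I : Subgroup GQ) (f : GQ → M)
    (h : IsLocallyConstant (fun σ : I => f σ)) (h1 : f 1 = 0) : HasLevel I f := by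
  have hopen : IsOpen {σ : I | f σ = 0} := h.isOpen_fiber 0
  obtain ⟨U, hU, hUf⟩ := isOpen_induced_iff.1 hopen
  have h1U : (1 : GQ) ∈ U := by
    have : (1 : I) ∈ (Subtype.val ⁻¹' U : Set I) := by
      rw [hUf]
      exact h1
    exact this
  obtain ⟨F, hF, hFU⟩ := (krullTopology_mem_nhds_one_iff ℚ Qb U).1 (hU.mem_nhds h1U)
  refine ⟨F, hF, fun σ hσ hσF => ?_⟩
  have : (⟨σ, hσ⟩ : I) ∈ (Subtype.val ⁻¹' U : Set I) := hFU hσF
  rw [hUf] at this
  exact this

theorem hasLevel_top_of_isLocallyConstant {M : Type*} [Zero M] (f : GQ → M)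
    (h : IsLocallyConstant f) (h1 : f 1 = 0) : HasLevel ⊤ f := by
  exact hasLevel_of_isLocallyConstant ⊤ f (h.comp_continuous continuous_subtype_val) h1

theorem hasLevel_of_isTwCocOn {m : ℕ} {χ : GQ →* ZMod m} {I : Subgroup GQ} {c : GQ → ZMod m}
    (h : Coh.IsTwCocOn χ I c) : HasLevel I c := by
  refine hasLevel_of_isLocallyConstant I c h.1 ?_
  have h1 := h.2 1 I.one_mem 1 I.one_mem
  rw [mul_one, map_one, one_mul] at h1
  exact left_eq_add.1 h1

/-- conjugation by `φ` preserves twisted cocycles. -/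
theorem isTwCocOn_conj {m : ℕ} {χ : GQ →* ZMod m} {I : Subgroup GQ} {c : GQ → ZMod m}
    (h : Coh.IsTwCocOn χ I c) {φ : GQ} (hφ : ∀ σ ∈ I, φ⁻¹ * σ * φ ∈ I) :
    Coh.IsTwCocOn χ I (fun σ => c (φ⁻¹ * σ * φ)) := by
  refine ⟨?_, fun σ hσ τ hτ => ?_⟩
  · have hcont : Continuous (fun σ : I => (⟨φ⁻¹ * σ * φ, hφ σ σ.2⟩ : I)) :=
      Continuous.subtype_mk ((continuous_const.mul continuous_subtype_val).mul continuous_const) _
    exact h.1.comp_continuous hcont
  · have e : φ⁻¹ * (σ * τ) * φ = (φ⁻¹ * σ * φ) * (φ⁻¹ * τ * φ) := by group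
    have hχ : χ (φ⁻¹ * σ * φ) = χ σ := by
      rw [map_mul, map_mul, mul_comm (χ φ⁻¹), mul_assoc, ← map_mul, inv_mul_cancel, map_one,
        mul_one]
    show c (φ⁻¹ * (σ * τ) * φ) = c (φ⁻¹ * σ * φ) + χ σ * c (φ⁻¹ * τ * φ)
    rw [e, h.2 _ (hφ σ hσ) _ (hφ τ hτ), hχ]

end Fermat.Agent.S15.Kum
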