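import Fermat.Agent.S15.Kum.Unit
import Fermat.Agent.S15.Kum.H90

/-!
# S15-KUM, file Tame: (TI), level `l`

`A` over `p`, `l ≠ p` prime.  `K := ` fixed field of `In A`.
* `exists_isTameGen`: let `π ^ l = p`.  If all `σ ∈ In A` fix `π` then `v π = v(p)^i` (`val_fixed`), so
  `v(p) = v(p)^(l i)`, `l i = 1` (`zpow_val_inj`): absurd.
* `IsTameGen.eq_zero`: `f : In A → ℤ/l` additive of finite level.  `ζ` a primitive `l`-th root of unity, fixed by `In A`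
  (`root_fixed`), so `σ ↦ ζ ^ f σ` is a cocycle: `hilbert90` gives `β ≠ 0` with `σ β = ζ ^ f σ * β`; `β ^ l` is fixed, so
  `v (β^l) = v(p)^j` (`val_fixed`).  `γ := β / π ^ j` has `v (γ ^ l) = 1`, so `v γ = 1`, and `(σ γ)^l = γ^l`: `σ γ = γ`
  (`fixed_of_unit`).  Hence `ζ ^ f σ = (σ π / π) ^ j` for all `σ ∈ In A`.  `κ := τ π / π ≠ 1` is a primitive `l`-th root of unity;
  `f τ = 0` gives `κ ^ j = 1`, `l ∣ j`, so `(σ π / π) ^ j = 1` for all `σ` and `f σ = 0`.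
-/

set_option autoImplicit false

namespace Fermat.Agent.S15.Kum

variable {p l : ℕ} {A : ValuationSubring Qb}

theorem Tame_pow_val_add {l : ℕ} [NeZero l] {ζ : Qb} (hζ : ζ ^ l = 1) (a b : ZMod l) :
    ζ ^ (a + b).val = ζ ^ a.val * ζ ^ b.val := by
  rw [ZMod.val_add, ← pow_add, ← pow_eq_pow_mod _ hζ]

theorem exists_isTameGen (hp : p.Prime) (hl : l.Prime) (hA : A.LiesOverPrime p) :
    ∃ τ : GQ, IsTameGen A p l τ := by
  obtain ⟨π, hπ⟩ := IsAlgClosed.exists_pow_nat_eq (p : Qb) hl.pos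
  by_contra hcon
  have hfix : ∀ σ ∈ In A, σ π = π := by
    intro σ hσ
    by_contra h
    exact hcon ⟨σ, hσ, π, hπ, h⟩
  have hp0 : (p : Qb) ≠ 0 := Nat.cast_ne_zero.2 hp.ne_zero
  have hπ0 : π ≠ 0 := by
    rintro rfl
    rw [zero_pow hl.ne_zero] at hπ
    exact hp0 hπ.symm
  obtain ⟨i, hi⟩ := val_fixed A hp hA hπ0 hfix
  have h1 : A.valuation (p : Qb) ^ (1 : ℤ) = A.valuation (p : Qb) ^ (i * l) := by
    rw [zpow_one, zpow_mul, ← hi, zpow_natCast, ← map_pow, hπ]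
  have h2 := zpow_val_inj A hp hA h1
  have h3 : (l : ℤ) ∣ 1 := ⟨i, by rw [h2]; ring⟩
  have h4 : l ∣ 1 := by exact_mod_cast h3
  exact hl.one_lt.ne' (Nat.dvd_one.1 h4)

/-- (TI) at level `l`: a homomorphism `In A → ℤ/l` of finite level which kills `τ` is zero. -/
theorem IsTameGen.eq_zero (hp : p.Prime) (hl : l.Prime) (hlp : l ≠ p) (hA : A.LiesOverPrime p)
    {τ : GQ} (hτ : IsTameGen A p l τ) (f : GQ → ZMod l)
    (hadd : ∀ σ ∈ In A, ∀ σ' ∈ In A, f (σ * σ') = f σ + f σ') (hlev : HasLevel (In A) f)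
    (h : f τ = 0) : ∀ σ ∈ In A, f σ = 0 := by
  obtain ⟨hτI, π, hπ, hτπ⟩ := hτ
  have : NeZero l := ⟨hl.ne_zero⟩
  have : Fact l.Prime := ⟨hl⟩
  have hpl : ¬ p ∣ l := fun h => hlp ((Nat.prime_dvd_prime_iff_eq hp hl).1 h).symm
  have hp0 : (p : Qb) ≠ 0 := Nat.cast_ne_zero.2 hp.ne_zero
  have hπ0 : π ≠ 0 := by
    rintro rfl
    rw [zero_pow hl.ne_zero] at hπ
    exact hp0 hπ.symm
  obtain ⟨ζ, hζ⟩ := HasEnoughRootsOfUnity.exists_primitiveRoot Qb l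
  have hζ1 : ζ ^ l = 1 := hζ.pow_eq_one
  have hζ0 : ζ ≠ 0 := hζ.ne_zero hl.ne_zero
  have hζfix : ∀ σ ∈ In A, σ ζ = ζ := fun σ hσ => root_fixed hp hA hpl hζ1 hσ
  obtain ⟨F₀, hF₀, hlev₀⟩ := hlev
  obtain ⟨β, hβ0, hβ⟩ := hilbert90 (In A) (fun σ => ζ ^ (f σ).val)
    (fun σ _ => pow_ne_zero _ hζ0)
    (fun σ hσ σ' hσ' => by
      show ζ ^ (f (σ * σ')).val = ζ ^ (f σ).val * σ (ζ ^ (f σ').val)
      rw [hadd σ hσ σ' hσ', Tame_pow_val_add hζ1, map_pow, hζfix σ hσ])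
    F₀ hF₀
    (fun σ hσ hσF => by
      show ζ ^ (f σ).val = 1
      rw [hlev₀ σ hσ hσF, ZMod.val_zero, pow_zero])
  -- `β ^ l` is fixed
  have hβl : ∀ σ ∈ In A, σ (β ^ l) = β ^ l := by
    intro σ hσ
    rw [map_pow, hβ σ hσ, mul_pow, ← pow_mul, mul_comm (f σ).val, pow_mul, hζ1, one_pow, one_mul]
  obtain ⟨j, hj⟩ := val_fixed A hp hA (pow_ne_zero l hβ0) hβl
  have hσπ : ∀ σ : GQ, (σ π) ^ l = (p : Qb) := by
    intro σ
    rw [← map_pow, hπ, map_natCast]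
  have hσπ0 : ∀ σ : GQ, σ π ≠ 0 := fun σ => (map_ne_zero σ).2 hπ0
  -- `γ = β / π ^ j` is a unit
  have hvp0 : A.valuation (p : Qb) ≠ 0 := val_natCast_ne_zero A hp
  have hγl : (β / π ^ j) ^ l = β ^ l / (p : Qb) ^ j := by
    rw [div_pow, ← zpow_natCast (π ^ j), ← zpow_mul, mul_comm, zpow_mul, zpow_natCast, hπ]
  have hγ : A.valuation (β / π ^ j) = 1 := by
    have h1 : A.valuation (β / π ^ j) ^ l = 1 := by
      rw [← map_pow, hγl, map_div₀, hj, map_zpow₀, div_self (zpow_ne_zero j hvp0)]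
    exact (pow_eq_one_iff_left hl.ne_zero).1 h1
  have hγfix : ∀ σ ∈ In A, σ (β / π ^ j) = β / π ^ j := by
    intro σ hσ
    apply fixed_of_unit hp hA hpl hγ hσ
    rw [← map_pow, hγl, map_div₀, hβl σ hσ, map_zpow₀, map_natCast]
  -- the key formula
  have hkey : ∀ σ ∈ In A, ζ ^ (f σ).val = (σ π / π) ^ j := by
    intro σ hσ
    have h1 := hγfix σ hσ
    rw [map_div₀, map_zpow₀, hβ σ hσ] at h1
    rw [div_zpow]
    have h2 : (σ π) ^ j ≠ 0 := zpow_ne_zero j (hσπ0 σ)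
    have h3 : π ^ j ≠ 0 := zpow_ne_zero j hπ0
    field_simp at h1 ⊢
    exact h1
  have hroot : ∀ σ : GQ, (σ π / π) ^ l = 1 := by
    intro σ
    rw [div_pow, hσπ σ, hπ, div_self hp0]
  have hκ1 : τ π / π ≠ 1 := by
    intro h
    exact hτπ ((div_eq_one_iff_eq hπ0).1 h)
  have hκ : IsPrimitiveRoot (τ π / π) l := by
    have := orderOf_eq_prime (hroot τ) hκ1
    rw [← this]
    exact IsPrimitiveRoot.orderOf _
  have hlj : (l : ℤ) ∣ j := by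
    rw [← hκ.zpow_eq_one_iff_dvd, ← hkey τ hτI, h, ZMod.val_zero, pow_zero]
  obtain ⟨t, rfl⟩ := hlj
  intro σ hσ
  have h1 : ζ ^ (f σ).val = 1 := by
    rw [hkey σ hσ, zpow_mul, zpow_natCast, hroot σ, one_zpow]
  have h2 := hζ.dvd_of_pow_eq_one _ h1
  have h3 := ZMod.val_lt (f σ)
  have h4 : (f σ).val = 0 := Nat.eq_zero_of_dvd_of_lt h2 h3
  exact (ZMod.val_eq_zero _).1 h4

end Fermat.Agent.S15.Kum
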