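import Fermat.Agent.S15.Kum.Val
import Fermat.Agent.S55.DIC.Unram6

/-!
# S15-KUM, file ValConj: equivariance of `vK` under the decomposition group

* `conj_mem`: `S55.DIC.unram6_conj_mem_inertia A φ σ hσ : φ⁻¹ * σ * φ ∈ (φ⁻¹ • A).inertiaSubgroupIn ℚ` and `φ⁻¹ • A = A`.
* `vK_conj`: `(k, β)` a witness of `c` (`exists_isWit`), `s := (χ φ)⁻¹ = χ φ⁻¹`.  For `σ ∈ In A`:
  `σ (φ β) = φ ((φ⁻¹ σ φ) β) = φ (ζ ^ c' σ * β) = ζ ^ (χ φ * c' σ) * φ β`, `c' σ := c (φ⁻¹ σ φ)`.  So `((s.val : ℤ) * k, (φ β) ^ s.val)` is a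
  witness of `c'` (`val_map_eq_zpow`), `vK c' = s * k`, `χ φ * vK c' = k = vK c` (`vK_eq` twice).
-/

set_option autoImplicit false

namespace Fermat.Agent.S15.Kum

variable {l m : ℕ} [NeZero m] {A : ValuationSubring Qb} {ζ : Qb} {χ : GQ →* ZMod m}

open scoped Pointwise in
omit [NeZero m] in
theorem ValConj_inv_smul {φ : GQ} (hφ : φ ∈ A.decompositionSubgroup ℚ) : φ⁻¹ • A = A := by
  have h1 : φ • A = A := hφ
  exact inv_smul_eq_iff.2 h1.symm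

theorem conj_mem {φ : GQ} (hφ : φ ∈ A.decompositionSubgroup ℚ) :
    ∀ σ ∈ In A, φ⁻¹ * σ * φ ∈ In A := by
  intro σ hσ
  have h3 := Fermat.Agent.S55.DIC.unram6_conj_mem_inertia A φ σ hσ
  rw [ValConj_inv_smul hφ] at h3
  exact h3

theorem vK_conj (hl : l.Prime) (hA : A.LiesOverPrime l) (hζ : ζ ^ m = 1) (hχ : IsCyc ζ χ)
    {φ : GQ} (hφ : φ ∈ A.decompositionSubgroup ℚ) (c : GQ → ZMod m)
    (hc : Coh.IsTwCocOn χ (In A) c) :
    χ φ * vK A l m ζ (fun σ => c (φ⁻¹ * σ * φ)) = vK A l m ζ c := by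
  obtain ⟨k, β, hβ0, hβσ, hβv⟩ := exists_isWit hl hA hζ hχ hc
  set s : ZMod m := χ φ⁻¹ with hs
  have hs1 : χ φ * s = 1 := by rw [hs, ← map_mul, mul_inv_cancel, map_one]
  have hφβ0 : φ β ≠ 0 := (map_ne_zero φ).2 hβ0
  have hwit : IsWit A l m ζ (fun σ => c (φ⁻¹ * σ * φ)) ((s.val : ℤ) * k) ((φ β) ^ s.val) := by
    refine ⟨pow_ne_zero _ hφβ0, fun σ hσ => ?_, ?_⟩
    · have h1 : σ (φ β) = φ ((φ⁻¹ * σ * φ) β) := by
        simp only [AlgEquiv.mul_apply]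
        exact (φ.apply_symm_apply _).symm
      have h2 : (((ζ ^ (χ φ).val) ^ (c (φ⁻¹ * σ * φ)).val) ^ s.val) =
          ζ ^ (c (φ⁻¹ * σ * φ)).val := by
        rw [← pow_val_mul hζ, ← pow_val_mul hζ]
        congr 2
        rw [mul_right_comm, hs1, one_mul]
      rw [map_pow, h1, hβσ _ (conj_mem hφ σ hσ), map_mul, map_pow, hχ φ, mul_pow, h2]
    · have h1 : ((φ β) ^ s.val) ^ m = (φ (β ^ m)) ^ s.val := by
        rw [map_pow, ← pow_mul, ← pow_mul, mul_comm]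
      rw [h1, map_pow, val_map_eq_zpow A hl hφ hβv, ← zpow_natCast, ← zpow_mul, mul_comm]
  rw [vK_eq hl hA hwit, vK_eq hl hA ⟨hβ0, hβσ, hβv⟩, Int.cast_mul, Int.cast_natCast,
    ZMod.natCast_zmod_val, ← mul_assoc, hs1, one_mul]

end Fermat.Agent.S15.Kum
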