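import Fermat.Agent.S15.Kum.TameGen
import Fermat.Agent.S15.Kum.ValConj

/-!
# S15-KUM, file TameRel: the tame relation `φ σ φ⁻¹ = σ ^ χ(φ)` on the pro-`l` quotient of the inertia group at `p ≠ l`

`n = l ^ k`, `ζ` a primitive `n`-th root of unity, `π ^ n = p`.  `IsKap ζ π κ : ∀ σ, σ π = ζ ^ (κ σ).val * π`  (the Kummer character of `p`).
* `exists_isKap`: `(σ π / π) ^ n = 1`, `IsPrimitiveRoot.eq_pow_of_pow_eq_one`.
* `IsKap.add`: `σ' π = ζ^κσ' π`, `σ ζ = ζ` for `σ ∈ In A` (`root_fixed`, `p ∤ n`), so `σ σ' π = ζ^κσ' ζ^κσ π`; `ζ ^ a.val` is injective in `a : ZMod n` (`IsPrimitiveRoot.pow_inj`, `ZMod.val_lt`).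
* `IsKap.hasLevel`: `F = ℚ(π)` (`IntermediateField.adjoin ℚ {π}`, finite since `π` is algebraic).
* `IsKap.conj`: `φ⁻¹ π = ζ^b π`; `σ (φ⁻¹ π) = ζ^b ζ^κσ π = ζ^κσ φ⁻¹ π`; apply `φ`: `(φ σ φ⁻¹) π = (φ ζ)^κσ π = ζ^(kφ κσ) π`.
* `IsKap.isUnit`: `IsTameGen`: `π₀ ^ l = p`, `τ π₀ ≠ π₀`.  `k ≥ 1`: `π₁ := π ^ (l^(k-1))` satisfies `π₁ ^ l = p`, so `π₁ = η π₀`, `η ^ l = 1`, `τ η = η` (`root_fixed`), so `τ π₁ ≠ π₁`, i.e. `ζ ^ (κτ l^(k-1)) ≠ 1`,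
  so `l ∤ (κ τ).val`, so `κ τ` is a unit of `ZMod (l^k)` (`ZMod.isUnit_iff_coprime`, `Nat.Coprime.pow_right`).  `k = 0`: `ZMod 1` is trivial, everything is a unit.
* `tame_relation`: `τ` from `exists_isTameGen`; `F σ := (f σ, κ σ) : M × ZMod n` is additive on `In A`, of finite level (compositum of the two levels), killed by `l^k`.  `IsTameGen.mem_zmultiples`:
  `F σ = j • F τ`, `F (φ σ φ⁻¹) = j' • F τ` (`φ σ φ⁻¹ ∈ In A`: `conj_mem` for `φ⁻¹`).  `j' κτ = κ(φσφ⁻¹) = kφ κσ = kφ j κτ` and `κτ` is a unit: `(j' : ZMod n) = kφ j`, so `n ∣ j' - kφ j`, and `n • f τ = 0`: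
  `f (φ σ φ⁻¹) = j' • f τ = (kφ j) • f τ = kφ • f σ`.
-/

set_option autoImplicit false

namespace Fermat.Agent.S15.Kum

variable {p l : ℕ} {A : ValuationSubring Qb}

/-- `κ` is the Kummer character of `π` with respect to `ζ`. -/
def IsKap {n : ℕ} (ζ π : Qb) (κ : GQ → ZMod n) : Prop := ∀ σ : GQ, σ π = ζ ^ (κ σ).val * π

/-- `a ↦ ζ ^ a.val` is injective on `ZMod n`. -/
theorem TameRel_pow_val_inj {n : ℕ} [NeZero n] {ζ : Qb} (hζ : IsPrimitiveRoot ζ n) {a b : ZMod n}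
    (h : ζ ^ a.val = ζ ^ b.val) : a = b :=
  ZMod.val_injective n (hζ.pow_inj (ZMod.val_lt a) (ZMod.val_lt b) h)

theorem TameRel_ne_zero {n : ℕ} [NeZero n] {π : Qb} (hπ : π ^ n = (p : Qb)) (hp : p.Prime) :
    π ≠ 0 := by
  rintro rfl
  rw [zero_pow (NeZero.ne n)] at hπ
  exact (Nat.cast_ne_zero.2 hp.ne_zero) hπ.symm

theorem exists_isKap {n : ℕ} [NeZero n] {ζ π : Qb} (hζ : IsPrimitiveRoot ζ n)
    (hπ : π ^ n = (p : Qb)) (hp : p.Prime) : ∃ κ : GQ → ZMod n, IsKap ζ π κ := by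
  have hπ0 : π ≠ 0 := TameRel_ne_zero hπ hp
  have h : ∀ σ : GQ, ∃ a : ZMod n, σ π = ζ ^ a.val * π := by
    intro σ
    have h1 : (σ π / π) ^ n = 1 := by
      rw [div_pow, ← map_pow, hπ, map_natCast, div_self (Nat.cast_ne_zero.2 hp.ne_zero)]
    obtain ⟨i, hi, hi'⟩ := hζ.eq_pow_of_pow_eq_one h1
    refine ⟨(i : ZMod n), ?_⟩
    rw [ZMod.val_natCast, Nat.mod_eq_of_lt hi, hi', div_mul_cancel₀ _ hπ0]
  exact ⟨fun σ => (h σ).choose, fun σ => (h σ).choose_spec⟩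

theorem IsKap.add {n : ℕ} [NeZero n] {ζ π : Qb} {κ : GQ → ZMod n} (h : IsKap ζ π κ)
    (hζ : IsPrimitiveRoot ζ n) (hπ : π ^ n = (p : Qb)) (hp : p.Prime) (hA : A.LiesOverPrime p)
    (hn : ¬ p ∣ n) : ∀ σ ∈ In A, ∀ σ' ∈ In A, κ (σ * σ') = κ σ + κ σ' := by
  intro σ hσ σ' _
  have hπ0 : π ≠ 0 := TameRel_ne_zero hπ hp
  apply TameRel_pow_val_inj hζ
  apply mul_right_cancel₀ hπ0
  have hσζ : σ ζ = ζ := root_fixed hp hA hn hζ.pow_eq_one hσ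
  have h3 : (σ * σ') π = σ (σ' π) := rfl
  rw [← h (σ * σ'), h3, h σ', map_mul, map_pow, hσζ, h σ, pow_val_add hζ.pow_eq_one]
  ring

theorem IsKap.hasLevel {n : ℕ} [NeZero n] {ζ π : Qb} {κ : GQ → ZMod n} (h : IsKap ζ π κ)
    (hζ : IsPrimitiveRoot ζ n) (hπ : π ^ n = (p : Qb)) (hp : p.Prime) (I : Subgroup GQ) :
    HasLevel I κ := by
  have hπ0 : π ≠ 0 := TameRel_ne_zero hπ hp
  have hint : IsIntegral ℚ π := ((AlgebraicClosure.isAlgebraic ℚ).isAlgebraic π).isIntegral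
  refine ⟨IntermediateField.adjoin ℚ {π}, IntermediateField.adjoin.finiteDimensional hint,
    fun σ _ hσF => ?_⟩
  have h1 : σ π = π :=
    (IntermediateField.mem_fixingSubgroup_iff _ σ).1 hσF π
      (IntermediateField.mem_adjoin_simple_self ℚ π)
  apply TameRel_pow_val_inj hζ
  apply mul_right_cancel₀ hπ0
  rw [← h σ, h1, ZMod.val_zero, pow_zero, one_mul]

theorem IsKap.conj {n : ℕ} [NeZero n] {ζ π : Qb} {κ : GQ → ZMod n} (h : IsKap ζ π κ)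
    (hζ : IsPrimitiveRoot ζ n) (hπ : π ^ n = (p : Qb)) (hp : p.Prime) (hA : A.LiesOverPrime p)
    (hn : ¬ p ∣ n) {φ : GQ} {kφ : ℕ} (hkφ : φ ζ = ζ ^ kφ) :
    ∀ σ ∈ In A, κ (φ * σ * φ⁻¹) = (kφ : ZMod n) * κ σ := by
  intro σ hσ
  have hπ0 : π ≠ 0 := TameRel_ne_zero hπ hp
  apply TameRel_pow_val_inj hζ
  apply mul_right_cancel₀ hπ0
  rw [← h (φ * σ * φ⁻¹)]
  have h1 : φ⁻¹ π = ζ ^ (κ φ⁻¹).val * π := h φ⁻¹
  have hσζ : σ ζ = ζ := root_fixed hp hA hn hζ.pow_eq_one hσ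
  have h2 : σ (φ⁻¹ π) = ζ ^ (κ σ).val * φ⁻¹ π := by
    rw [h1, map_mul, map_pow, hσζ, h σ]
    ring
  have h3 : (φ * σ * φ⁻¹) π = φ (σ (φ⁻¹ π)) := rfl
  have h4 : φ (φ⁻¹ π) = π := φ.apply_symm_apply π
  rw [h3, h2, map_mul, map_pow, hkφ, h4, ← pow_mul]
  congr 1
  apply H90_pow_eq hζ.pow_eq_one
  push_cast
  rw [ZMod.natCast_zmod_val, ZMod.natCast_zmod_val]

theorem IsKap.isUnit {k : ℕ} {ζ π : Qb} {κ : GQ → ZMod (l ^ k)} (h : IsKap ζ π κ)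
    (hζ : IsPrimitiveRoot ζ (l ^ k)) (hπ : π ^ (l ^ k) = (p : Qb)) (hp : p.Prime) (hl : l.Prime)
    (hlp : l ≠ p) (hA : A.LiesOverPrime p) {τ : GQ} (hτ : IsTameGen A p l τ) : IsUnit (κ τ) := by
  have : NeZero (l ^ k) := ⟨pow_ne_zero k hl.ne_zero⟩
  rcases Nat.eq_zero_or_pos k with rfl | hk
  · have : Subsingleton (ZMod (l ^ 0)) := by rw [pow_zero]; infer_instance
    exact isUnit_of_subsingleton _
  obtain ⟨hτI, π₀, hπ₀, hmove⟩ := hτ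
  have hpl : ¬ p ∣ l := fun hd => hlp ((Nat.prime_dvd_prime_iff_eq hp hl).1 hd).symm
  have hπ0 : π ≠ 0 := TameRel_ne_zero hπ hp
  have hπ₀0 : π₀ ≠ 0 := by
    rintro rfl
    rw [zero_pow hl.ne_zero] at hπ₀
    exact (Nat.cast_ne_zero.2 hp.ne_zero) hπ₀.symm
  obtain ⟨j, rfl⟩ : ∃ j, k = j + 1 := ⟨k - 1, by omega⟩
  set π₁ : Qb := π ^ (l ^ j) with hπ₁
  have hπ₁l : π₁ ^ l = (p : Qb) := by rw [hπ₁, ← pow_mul, ← pow_succ, hπ]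
  have hπ₁0 : π₁ ≠ 0 := pow_ne_zero _ hπ0
  -- `η = π₁ / π₀` is an `l`-th root of unity
  have hη : (π₁ / π₀) ^ l = 1 := by rw [div_pow, hπ₁l, hπ₀, div_self (Nat.cast_ne_zero.2 hp.ne_zero)]
  have hτη : τ (π₁ / π₀) = π₁ / π₀ := root_fixed hp hA hpl hη hτI
  have hmove₁ : τ π₁ ≠ π₁ := by
    intro h1
    apply hmove
    rw [map_div₀, h1] at hτη
    have h2 : π₁ / τ π₀ = π₁ / π₀ := hτη
    have hτπ₀ : τ π₀ ≠ 0 := (map_ne_zero τ).2 hπ₀0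
    field_simp at h2
    exact h2.symm
  rw [← ZMod.natCast_zmod_val (κ τ), ZMod.isUnit_iff_coprime]
  apply Nat.Coprime.pow_right
  apply Nat.Coprime.symm
  rw [Nat.Prime.coprime_iff_not_dvd hl]
  rintro ⟨t, ht⟩
  apply hmove₁
  rw [hπ₁, map_pow, h τ, mul_pow, ← pow_mul, ht, mul_comm l t, mul_assoc, ← pow_succ', pow_mul',
    hζ.pow_eq_one, one_pow, one_mul]

/-- (K-a) THE TAME RELATION. -/
theorem tame_relation (hp : p.Prime) (hl : l.Prime) (hlp : l ≠ p) (hA : A.LiesOverPrime p)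
    {φ : GQ} (hφ : φ ∈ A.decompositionSubgroup ℚ) {M : Type*} [AddCommGroup M] (f : GQ → M)
    (hadd : ∀ σ ∈ In A, ∀ σ' ∈ In A, f (σ * σ') = f σ + f σ') (hlev : HasLevel (In A) f)
    (k : ℕ) (hk : ∀ σ ∈ In A, l ^ k • f σ = 0) (kφ : ℕ)
    (hkφ : ∀ ξ : Qb, ξ ^ (l ^ k) = 1 → φ ξ = ξ ^ kφ) :
    ∀ σ ∈ In A, f (φ * σ * φ⁻¹) = kφ • f σ := by
  intro σ hσ
  have hne : NeZero (l ^ k) := ⟨pow_ne_zero k hl.ne_zero⟩
  have hpn : ¬ p ∣ l ^ k := fun hd =>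
    hlp ((Nat.prime_dvd_prime_iff_eq hp hl).1 (hp.dvd_of_dvd_pow hd)).symm
  obtain ⟨τ, hτ⟩ := exists_isTameGen (l := l) hp hl hA
  obtain ⟨ζ, hζ⟩ : ∃ ζ : Qb, IsPrimitiveRoot ζ (l ^ k) :=
    HasEnoughRootsOfUnity.exists_primitiveRoot Qb (l ^ k)
  obtain ⟨π, hπ⟩ := IsAlgClosed.exists_pow_nat_eq (p : Qb) (Nat.pos_of_ne_zero (NeZero.ne (l ^ k)))
  obtain ⟨κ, hκ⟩ := exists_isKap hζ hπ hp
  have hκadd := hκ.add hζ hπ hp hA hpn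
  have hκconj := hκ.conj hζ hπ hp hA hpn (hkφ ζ hζ.pow_eq_one) σ hσ
  have hκu : IsUnit (κ τ) := hκ.isUnit hζ hπ hp hl hlp hA hτ
  have hσ' : φ * σ * φ⁻¹ ∈ In A := by
    have := conj_mem (A := A) (φ := φ⁻¹) (inv_mem hφ) σ hσ
    rwa [inv_inv] at this
  -- the pair
  have hF := hτ.mem_zmultiples hp hl hlp hA (M := M × ZMod (l ^ k)) (fun ρ => (f ρ, κ ρ))
    (fun ρ hρ ρ' hρ' => by
      show (f (ρ * ρ'), κ (ρ * ρ')) = (f ρ + f ρ', κ ρ + κ ρ')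
      rw [hadd ρ hρ ρ' hρ', hκadd ρ hρ ρ' hρ'])
    (by
      obtain ⟨F₁, hF₁, h₁⟩ := hlev
      obtain ⟨F₂, hF₂, h₂⟩ := hκ.hasLevel hζ hπ hp (In A)
      refine ⟨F₁ ⊔ F₂, IntermediateField.finiteDimensional_sup F₁ F₂, fun ρ hρ hρF => ?_⟩
      have e₁ : ρ ∈ F₁.fixingSubgroup :=
        (IntermediateField.fixingSubgroup_le (le_sup_left : F₁ ≤ F₁ ⊔ F₂)) hρF
      have e₂ : ρ ∈ F₂.fixingSubgroup :=
        (IntermediateField.fixingSubgroup_le (le_sup_right : F₂ ≤ F₁ ⊔ F₂)) hρF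
      show (f ρ, κ ρ) = (0, 0)
      rw [h₁ ρ hρ e₁, h₂ ρ hρ e₂])
    k (fun ρ hρ => by
      show (l ^ k • f ρ, l ^ k • κ ρ) = (0, 0)
      rw [hk ρ hρ]
      congr 1
      rw [nsmul_eq_mul, ZMod.natCast_self, zero_mul])
  obtain ⟨j, hj⟩ := AddSubgroup.mem_zmultiples_iff.1 (hF σ hσ)
  obtain ⟨j', hj'⟩ := AddSubgroup.mem_zmultiples_iff.1 (hF _ hσ')
  have hj1 : j • f τ = f σ := congrArg Prod.fst hj
  have hj2 : j • κ τ = κ σ := congrArg Prod.snd hj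
  have hj1' : j' • f τ = f (φ * σ * φ⁻¹) := congrArg Prod.fst hj'
  have hj2' : j' • κ τ = κ (φ * σ * φ⁻¹) := congrArg Prod.snd hj'
  have hcong : ((j' : ℤ) : ZMod (l ^ k)) = ((kφ * j : ℤ) : ZMod (l ^ k)) := by
    apply hκu.mul_right_cancel
    have e1 : ((j' : ℤ) : ZMod (l ^ k)) * κ τ = κ (φ * σ * φ⁻¹) := by
      rw [← hj2', zsmul_eq_mul]
    have e2 : ((kφ * j : ℤ) : ZMod (l ^ k)) * κ τ = (kφ : ZMod (l ^ k)) * κ σ := by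
      rw [← hj2, zsmul_eq_mul]
      push_cast
      ring
    rw [e1, e2, hκconj]
  obtain ⟨t, ht⟩ : ((l ^ k : ℕ) : ℤ) ∣ j' - kφ * j := by
    rw [← ZMod.intCast_zmod_eq_zero_iff_dvd]
    push_cast
    push_cast at hcong
    rw [hcong, sub_self]
  have hτ0 : (l ^ k) • f τ = 0 := hk τ hτ.1
  have hj'eq : j' = kφ * j + ((l ^ k : ℕ) : ℤ) * t := by linarith
  rw [← hj1', ← hj1, hj'eq, add_smul, mul_smul, mul_comm ((l ^ k : ℕ) : ℤ) t, mul_smul,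
    natCast_zsmul, natCast_zsmul, hτ0, smul_zero, add_zero]

/-- the tame relation for unipotent actions: `φ (σ - 1) φ⁻¹ = kφ (σ - 1)`. -/
theorem tame_relation_smul (hp : p.Prime) (hl : l.Prime) (hlp : l ≠ p) (hA : A.LiesOverPrime p)
    {φ : GQ} (hφ : φ ∈ A.decompositionSubgroup ℚ) {G : Type*} [AddCommGroup G]
    [DistribMulAction GQ G]
    (hlev : ∃ F : IntermediateField ℚ Qb, FiniteDimensional ℚ F ∧
      ∀ σ ∈ In A, σ ∈ F.fixingSubgroup → ∀ g : G, σ • g = g)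
    (k : ℕ) (hk : ∀ g : G, l ^ k • g = 0)
    (hun : ∀ σ ∈ In A, ∀ σ' ∈ In A, ∀ g : G, σ • (σ' • g - g) = σ' • g - g) (kφ : ℕ)
    (hkφ : ∀ ξ : Qb, ξ ^ (l ^ k) = 1 → φ ξ = ξ ^ kφ) :
    ∀ σ ∈ In A, ∀ g : G, (φ * σ * φ⁻¹) • g - g = kφ • (σ • g - g) := by
  have := tame_relation hp hl hlp hA hφ (M := G → G) (fun σ g => σ • g - g)
    (fun σ hσ σ' hσ' => by
      funext g
      show (σ * σ') • g - g = (σ • g - g) + (σ' • g - g)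
      have h1 := hun σ hσ σ' hσ' g
      rw [_root_.smul_sub, ← mul_smul] at h1
      have h2 : (σ * σ') • g = σ' • g - g + σ • g := sub_eq_iff_eq_add.1 h1
      rw [h2]
      abel)
    (by
      obtain ⟨F, hF, hf⟩ := hlev
      refine ⟨F, hF, fun σ hσ hσF => ?_⟩
      funext g
      show σ • g - g = 0
      rw [hf σ hσ hσF g, sub_self])
    k (fun σ hσ => by
      funext g
      exact hk _) kφ hkφ
  intro σ hσ g
  exact congrFun (this σ hσ) g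

end Fermat.Agent.S15.Kum
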