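import Fermat.Agent.S15.Kum.Export
import Fermat.Agent.S15.Kum.Frob
import Fermat.Agent.S15.Coh.Clean

/-!
# S15-KUM, file Tower: the term `arithTower : Coh.ArithTower GQ l`
-/

set_option autoImplicit false

namespace Fermat.Agent.S15.Kum

variable {p l : ℕ}

theorem exists_primitiveRoot {n : ℕ} (hn : n ≠ 0) : ∃ ζ : Qb, IsPrimitiveRoot ζ n := by
  have : NeZero n := ⟨hn⟩
  exact HasEnoughRootsOfUnity.exists_primitiveRoot Qb n

theorem exists_tower_data (hl : l.Prime) :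
    ∃ (ζ : ℕ → Qb) (χ : ∀ r : ℕ, GQ →* ZMod (l ^ r)),
      ∀ r, IsPrimitiveRoot (ζ r) (l ^ r) ∧ IsCyc (ζ r) (χ r) := by
  have h : ∀ r : ℕ, ∃ (z : Qb) (χ : GQ →* ZMod (l ^ r)), IsPrimitiveRoot z (l ^ r) ∧ IsCyc z χ := by
    intro r
    have : NeZero (l ^ r) := ⟨pow_ne_zero r hl.ne_zero⟩
    obtain ⟨z, hz⟩ := exists_primitiveRoot (pow_ne_zero r hl.ne_zero)
    obtain ⟨χ, hχ⟩ := exists_isCyc hz
    exact ⟨z, χ, hz, hχ⟩
  exact ⟨fun r => (h r).choose, fun r => (h r).choose_spec.choose,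
    fun r => (h r).choose_spec.choose_spec⟩

/-- a primitive `l^r`-th root of unity. -/
noncomputable def zet (hl : l.Prime) : ℕ → Qb := (exists_tower_data hl).choose

/-- the cyclotomic character modulo `l^r`. -/
noncomputable def chi (hl : l.Prime) : ∀ r : ℕ, GQ →* ZMod (l ^ r) :=
  (exists_tower_data hl).choose_spec.choose

theorem zet_spec (hl : l.Prime) (r : ℕ) : IsPrimitiveRoot (zet hl r) (l ^ r) :=
  ((exists_tower_data hl).choose_spec.choose_spec r).1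

theorem chi_isCyc (hl : l.Prime) (r : ℕ) : IsCyc (zet hl r) (chi hl r) :=
  ((exists_tower_data hl).choose_spec.choose_spec r).2

/-- the characterisation of `chi`. -/
theorem chi_spec (hl : l.Prime) (r : ℕ) (σ : GQ) {ξ : Qb} (hξ : ξ ^ (l ^ r) = 1) :
    σ ξ = ξ ^ (chi hl r σ).val := by
  have : NeZero (l ^ r) := ⟨pow_ne_zero r hl.ne_zero⟩
  exact (chi_isCyc hl r).of_pow_eq_one (zet_spec hl r) hξ σ

/-- exponents of a primitive root are determined modulo its order. -/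
theorem Tower_modEq {k : ℕ} (hk : 0 < k) {ξ : Qb} (hξ : IsPrimitiveRoot ξ k) {a b : ℕ}
    (h : ξ ^ a = ξ ^ b) : a ≡ b [MOD k] := by
  rw [pow_eq_pow_mod a hξ.pow_eq_one, pow_eq_pow_mod b hξ.pow_eq_one] at h
  exact hξ.pow_inj (Nat.mod_lt _ hk) (Nat.mod_lt _ hk) h

/-- `chi hl r σ = 1` iff `σ` fixes the `l^r`-th roots of unity. -/
theorem chi_eq_one_iff (hl : l.Prime) (r : ℕ) (σ : GQ) :
    chi hl r σ = 1 ↔ ∀ ξ : Qb, ξ ^ (l ^ r) = 1 → σ ξ = ξ := by
  have hm : 0 < l ^ r := pow_pos hl.pos r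
  have : NeZero (l ^ r) := ⟨hm.ne'⟩
  constructor
  · intro h ξ hξ
    rw [chi_spec hl r σ hξ, h, ZMod.val_one_eq_one_mod, ← pow_eq_pow_mod 1 hξ, pow_one]
  · intro h
    have h1 := chi_spec hl r σ (zet_spec hl r).pow_eq_one
    rw [h _ (zet_spec hl r).pow_eq_one] at h1
    have h2 : 1 ≡ (chi hl r σ).val [MOD l ^ r] :=
      Tower_modEq hm (zet_spec hl r) (by rw [pow_one]; exact h1)
    have h3 := (ZMod.natCast_eq_natCast_iff _ _ _).2 h2
    rw [ZMod.natCast_zmod_val, Nat.cast_one] at h3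
    exact h3.symm

/-- compatibility of the levels. -/
theorem chi_cast (hl : l.Prime) {r s : ℕ} (hrs : r ≤ s) (σ : GQ) :
    ZMod.castHom (pow_dvd_pow l hrs) (ZMod (l ^ r)) (chi hl s σ) = chi hl r σ := by
  have hm : 0 < l ^ r := pow_pos hl.pos r
  have : NeZero (l ^ r) := ⟨hm.ne'⟩
  have : NeZero (l ^ s) := ⟨(pow_pos hl.pos s).ne'⟩
  have hr1 : zet hl r ^ (l ^ r) = 1 := (zet_spec hl r).pow_eq_one
  have hs1 : zet hl r ^ (l ^ s) = 1 := by
    obtain ⟨d, hd⟩ := pow_dvd_pow l hrs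
    rw [hd, pow_mul, hr1, one_pow]
  have h1 := chi_spec hl r σ hr1
  rw [chi_spec hl s σ hs1] at h1
  have h2 : (chi hl s σ).val ≡ (chi hl r σ).val [MOD l ^ r] := Tower_modEq hm (zet_spec hl r) h1
  have h3 := (ZMod.natCast_eq_natCast_iff _ _ _).2 h2
  rw [ZMod.natCast_zmod_val] at h3
  rw [← h3, ZMod.castHom_apply, ZMod.natCast_val]

theorem omega_all (hl : l.Prime) {A : ValuationSubring Qb} (hA : A.LiesOverPrime l) (r : ℕ) :
    (∀ γ : GQ, ∀ a : ZMod (l ^ r), l • a = 0 → chi hl r γ * a = a) ∨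
      (∃ σ ∈ In A, ∀ a : ZMod (l ^ r), l • a = 0 → chi hl r σ * a = a → a = 0) := by
  have : NeZero (l ^ r) := ⟨pow_ne_zero r hl.ne_zero⟩
  rcases Nat.eq_zero_or_pos r with rfl | hr
  · left
    intro γ a _
    have : Subsingleton (ZMod (l ^ 0)) := by rw [pow_zero]; infer_instance
    exact Subsingleton.elim _ _
  · exact omega hl hA hr rfl (zet_spec hl r) (chi_isCyc hl r)

theorem B2_all (hp : p.Prime) (hl : l.Prime) {Ap Al : ValuationSubring Qb}
    (hAp : Ap.LiesOverPrime p) (hAl : Al.LiesOverPrime l) (r : ℕ) :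
    {c | Coh.IsStrict l (chi hl r) (In Ap) (unr p l) (vK Al l (l ^ r) (zet hl r)) c}.Finite ∧
      {c | Coh.IsStrict l (chi hl r) (In Ap) (unr p l) (vK Al l (l ^ r) (zet hl r)) c}.ncard ≤
        l := by
  have : NeZero (l ^ r) := ⟨pow_ne_zero r hl.ne_zero⟩
  rcases Nat.eq_zero_or_pos r with rfl | hr
  · have : Subsingleton (ZMod (l ^ 0)) := by rw [pow_zero]; infer_instance
    have hs : ({c | Coh.IsStrict l (chi hl 0) (In Ap) (unr p l) (vK Al l (l ^ 0) (zet hl 0)) c} :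
        Set (GQ → ZMod (l ^ 0))).Subsingleton := fun a _ b _ => Subsingleton.elim a b
    exact ⟨hs.finite, (Set.ncard_le_one_iff_subsingleton.mpr hs).trans hl.one_lt.le⟩
  · exact B2 hp hl hAp hAl hr rfl (zet_spec hl r) (chi_isCyc hl r)

theorem TI_all (hp : p.Prime) (hl : l.Prime) (hlp : l ≠ p) {A : ValuationSubring Qb}
    (hA : A.LiesOverPrime p) {τ : GQ} (hτ : IsTameGen A p l τ) (r : ℕ) (c : GQ → ZMod (l ^ r))
    (hlc : IsLocallyConstant (fun σ : In A => c σ))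
    (hadd : ∀ σ ∈ In A, ∀ σ' ∈ In A, c (σ * σ') = c σ + c σ') (h : c τ = 0) :
    ∀ σ ∈ In A, c σ = 0 := by
  have h1 : c 1 = 0 := by
    have h2 := hadd 1 (In A).one_mem 1 (In A).one_mem
    rw [mul_one] at h2
    exact left_eq_add.mp h2
  have hlev : HasLevel (In A) c := hasLevel_of_isLocallyConstant (In A) c hlc h1
  intro σ hσ
  have h3 := hτ.mem_zmultiples hp hl hlp hA c hadd hlev r
    (fun σ _ => by rw [nsmul_eq_mul, ZMod.natCast_self, zero_mul]) σ hσ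
  rw [h, AddSubgroup.zmultiples_zero_eq_bot, AddSubgroup.mem_bot] at h3
  exact h3

/-- THE EXPORT for ABS-B. -/
noncomputable def arithTower (hp : p.Prime) (hl : l.Prime) (hlp : l ≠ p)
    {Ap Al : ValuationSubring Qb} (hAp : Ap.LiesOverPrime p) (hAl : Al.LiesOverPrime l)
    {φ : GQ} (hφ : φ ∈ Al.decompositionSubgroup ℚ) : Coh.ArithTower GQ l where
  Ip := In Ap
  Il := In Al
  U := unr p l
  φ := φ
  τ := fun _ => (exists_isTameGen (l := l) hp hl hAp).choose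
  χ := chi hl
  v := fun r => vK Al l (l ^ r) (zet hl r)
  conj_mem := conj_mem hφ
  v_congr := fun r =>
    haveI : NeZero (l ^ r) := ⟨pow_ne_zero r hl.ne_zero⟩
    vK_congr
  v_add := fun r =>
    haveI : NeZero (l ^ r) := ⟨pow_ne_zero r hl.ne_zero⟩
    vK_add hl hAl (zet_spec hl r).pow_eq_one (chi_isCyc hl r)
  v_cob := fun r =>
    haveI : NeZero (l ^ r) := ⟨pow_ne_zero r hl.ne_zero⟩
    vK_cob hl hAl (zet_spec hl r).pow_eq_one (chi_isCyc hl r)
  v_conj := fun r =>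
    haveI : NeZero (l ^ r) := ⟨pow_ne_zero r hl.ne_zero⟩
    vK_conj hl hAl (zet_spec hl r).pow_eq_one (chi_isCyc hl r) hφ
  omega := omega_all hl hAl
  B1 := fun _ c hlc hadd _ hIp hIl hU => B1 hp hl Ap Al hAp hAl c hlc hadd hIp hIl hU
  B2 := B2_all hp hl hAp hAl
  τ_mem := fun _ => (exists_isTameGen (l := l) hp hl hAp).choose_spec.1
  TI := fun r c hlc hadd h =>
    TI_all hp hl hlp hAp (exists_isTameGen (l := l) hp hl hAp).choose_spec r c hlc hadd h

end Fermat.Agent.S15.Kum
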