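import Fermat.Agent.S15.Kum.Basic
import Fermat.Agent.S05.Inertia
import Fermat.Agent.GR.H.Cyc

/-!
# S15-KUM, file Unit: (K2) prime-to-`q` roots of units of the inertia field lie in the inertia field

`γ` a unit of `A`, `σ ∈ In A`, `(σ γ)^n = γ^n`, `q ∤ n`.  `η := σ γ / γ` is an `n`-th root of unity and
`η - 1 = (σ γ - γ) / γ ∈ 𝔪_A` (`S05.inertia_sub_mem`), so `η = 1` (`GR.H.Cyc_eq_of_sub_mem`).
-/

set_option autoImplicit false

namespace Fermat.Agent.S15.Kum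

variable {q : ℕ} {A : ValuationSubring Qb}

theorem fixed_of_unit (hq : q.Prime) (hA : A.LiesOverPrime q) {n : ℕ} (hn : ¬ q ∣ n) {γ : Qb}
    (hγ : A.valuation γ = 1) {σ : GQ} (hσ : σ ∈ In A) (h : (σ γ) ^ n = γ ^ n) : σ γ = γ := by
  have hγ0 : γ ≠ 0 := by
    intro h0
    rw [h0, map_zero] at hγ
    exact zero_ne_one hγ
  have hγA : γ ∈ A := (A.valuation_le_one_iff γ).1 hγ.le
  have h1 : σ γ - γ ∈ A.nonunits := Fermat.Agent.S05.inertia_sub_mem A hσ hγA
  have hη : (σ γ / γ) ^ n = 1 := by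
    rw [div_pow, h]
    exact div_self (pow_ne_zero n hγ0)
  have h2 : σ γ / γ - 1 ∈ A.nonunits := by
    have h3 : σ γ / γ - 1 = (σ γ - γ) * γ⁻¹ := by
      field_simp
    rw [ValuationSubring.mem_nonunits_iff] at h1 ⊢
    rw [h3, map_mul, map_inv₀, hγ, inv_one, mul_one]
    exact h1
  have h4 : σ γ / γ = 1 :=
    Fermat.Agent.GR.H.Cyc_eq_of_sub_mem A q hq hA n hn (σ γ / γ) 1 hη (one_pow n) h2
  rwa [div_eq_one_iff_eq hγ0] at h4

/-- roots of unity of order prime to `q` are fixed by the inertia group. -/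
theorem root_fixed (hq : q.Prime) (hA : A.LiesOverPrime q) {n : ℕ} (hn : ¬ q ∣ n) {ζ : Qb}
    (hζ : ζ ^ n = 1) {σ : GQ} (hσ : σ ∈ In A) : σ ζ = ζ := by
  have hn0 : n ≠ 0 := by
    rintro rfl
    exact hn (dvd_zero _)
  have hv : A.valuation ζ = 1 := by
    have h1 : A.valuation ζ ^ n = 1 := by rw [← map_pow, hζ, map_one]
    exact (pow_eq_one_iff.1 h1).resolve_right hn0
  refine fixed_of_unit hq hA hn hv hσ ?_
  rw [← map_pow, hζ, map_one]

end Fermat.Agent.S15.Kum
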