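import Fermat.Agent.S15.Kum.Basic
import Fermat.Agent.S15.Kum.H90
import Fermat.Agent.S15.Kum.Level

/-!
# S15-KUM, file Val: (K3) the valuation of the Kummer class of a twisted cocycle on the inertia group at `l`

* `vK_eq` (well defined): two witnesses `(k, β)`, `(k', β')` of the same `c`: `β' / β` is fixed by `In A`, so `v (β'/β) = v(l)^j`
  (`val_fixed`), `v(l)^k' = v(l)^(k + m j)`, `k' = k + m j` (`zpow_val_inj`).  Then `h.choose`, `h.choose_spec`.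
* `exists_isWit`: `exists_kummer_gen` (level from `hasLevel_of_isTwCocOn`); `β ^ m` is fixed by `In A` since `(ζ ^ _) ^ m = 1`; `val_fixed`.
* `vK_congr`: the two predicates are equal (`funext`, `propext`), no arithmetic.
* `vK_add`: `(k + k', β β')`;  `ζ ^ (a + b).val = ζ ^ a.val * ζ ^ b.val` because `ζ ^ m = 1`.
* `vK_cob`: `(0, ζ ^ a.val)`.
-/

set_option autoImplicit false

namespace Fermat.Agent.S15.Kum

variable {l m : ℕ} [NeZero m] {A : ValuationSubring Qb} {ζ : Qb} {χ : GQ →* ZMod m}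

/-- exponents may be computed in `ZMod m`. -/
theorem pow_val_add (hζ : ζ ^ m = 1) (a b : ZMod m) :
    ζ ^ (a + b).val = ζ ^ a.val * ζ ^ b.val := by
  rw [← pow_add]
  apply H90_pow_eq hζ
  push_cast
  rw [ZMod.natCast_zmod_val, ZMod.natCast_zmod_val, ZMod.natCast_zmod_val]

theorem pow_val_mul (hζ : ζ ^ m = 1) (a b : ZMod m) :
    ζ ^ (a * b).val = (ζ ^ a.val) ^ b.val := by
  rw [← pow_mul]
  apply H90_pow_eq hζ
  push_cast
  rw [ZMod.natCast_zmod_val, ZMod.natCast_zmod_val, ZMod.natCast_zmod_val]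

/-- two witnesses of the same cocycle have the same valuation modulo `m`. -/
theorem isWit_unique (hl : l.Prime) (hA : A.LiesOverPrime l) {c : GQ → ZMod m} {k k' : ℤ}
    {β β' : Qb} (h : IsWit A l m ζ c k β) (h' : IsWit A l m ζ c k' β') :
    (k : ZMod m) = (k' : ZMod m) := by
  obtain ⟨hβ, hσ, hv⟩ := h
  obtain ⟨hβ', hσ', hv'⟩ := h'
  have hfix : ∀ σ ∈ In A, σ (β / β') = β / β' := by
    intro σ hs
    have hne : ζ ^ (c σ).val ≠ 0 := by
      intro h0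
      have := hσ σ hs
      rw [h0, zero_mul] at this
      exact hβ ((map_eq_zero σ).1 this)
    rw [map_div₀, hσ σ hs, hσ' σ hs, mul_div_mul_left _ _ hne]
  obtain ⟨j, hj⟩ := val_fixed A hl hA (div_ne_zero hβ hβ') hfix
  have hl0 : A.valuation (l : Qb) ≠ 0 := val_natCast_ne_zero A hl
  have hkey : A.valuation (l : Qb) ^ k = A.valuation (l : Qb) ^ (k' + j * m) := by
    rw [zpow_add₀ hl0, zpow_mul, ← hj, ← hv, ← hv', zpow_natCast, ← map_pow, ← map_mul, div_pow,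
      mul_div_cancel₀ _ (pow_ne_zero m hβ')]
  have := zpow_val_inj A hl hA hkey
  rw [this]
  push_cast
  rw [ZMod.natCast_self, mul_zero, add_zero]

theorem vK_eq (hl : l.Prime) (hA : A.LiesOverPrime l) {c : GQ → ZMod m} {k : ℤ} {β : Qb}
    (h : IsWit A l m ζ c k β) : vK A l m ζ c = (k : ZMod m) := by
  have hex : ∃ k : ℤ, ∃ β : Qb, IsWit A l m ζ c k β := ⟨k, β, h⟩
  have h1 : vK A l m ζ c = (hex.choose : ZMod m) := dif_pos hex
  rw [h1]
  obtain ⟨β', hβ'⟩ := hex.choose_spec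
  exact isWit_unique hl hA hβ' h

theorem exists_isWit (hl : l.Prime) (hA : A.LiesOverPrime l) (hζ : ζ ^ m = 1) (hχ : IsCyc ζ χ)
    {c : GQ → ZMod m} (hc : Coh.IsTwCocOn χ (In A) c) : ∃ k : ℤ, ∃ β : Qb, IsWit A l m ζ c k β := by
  obtain ⟨β, hβ, hσ⟩ := exists_kummer_gen hζ hχ (In A) c hc.2 (hasLevel_of_isTwCocOn hc)
  have hfix : ∀ σ ∈ In A, σ (β ^ m) = β ^ m := by
    intro σ hs
    rw [map_pow, hσ σ hs, mul_pow, ← pow_mul, mul_comm (c σ).val, pow_mul, hζ, one_pow, one_mul]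
  obtain ⟨k, hk⟩ := val_fixed A hl hA (pow_ne_zero m hβ) hfix
  exact ⟨k, β, hβ, hσ, hk⟩

theorem vK_congr (c c' : GQ → ZMod m) (h : ∀ σ ∈ In A, c σ = c' σ) :
    vK A l m ζ c = vK A l m ζ c' := by
  have hP : (fun (k : ℤ) (β : Qb) => IsWit A l m ζ c k β) =
      fun (k : ℤ) (β : Qb) => IsWit A l m ζ c' k β := by
    funext k β
    refine propext ⟨fun hw => ⟨hw.1, fun σ hs => ?_, hw.2.2⟩, fun hw => ⟨hw.1, fun σ hs => ?_, hw.2.2⟩⟩
    · rw [← h σ hs]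
      exact hw.2.1 σ hs
    · rw [h σ hs]
      exact hw.2.1 σ hs
  have key : ∀ P Q : ℤ → Qb → Prop, P = Q → ∀ (hp : Decidable (∃ k : ℤ, ∃ β : Qb, P k β))
      (hq : Decidable (∃ k : ℤ, ∃ β : Qb, Q k β)),
      (@dite _ (∃ k : ℤ, ∃ β : Qb, P k β) hp (fun h => ((h.choose : ℤ) : ZMod m)) fun _ => 0) =
      (@dite _ (∃ k : ℤ, ∃ β : Qb, Q k β) hq (fun h => ((h.choose : ℤ) : ZMod m)) fun _ => 0) := by
    rintro P _ rfl hp hq
    congr!
  exact key _ _ hP _ _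

theorem vK_add (hl : l.Prime) (hA : A.LiesOverPrime l) (hζ : ζ ^ m = 1) (hχ : IsCyc ζ χ)
    (c c' : GQ → ZMod m) (hc : Coh.IsTwCocOn χ (In A) c) (hc' : Coh.IsTwCocOn χ (In A) c') :
    vK A l m ζ (c + c') = vK A l m ζ c + vK A l m ζ c' := by
  obtain ⟨k, β, hβ0, hβ, hβv⟩ := exists_isWit hl hA hζ hχ hc
  obtain ⟨k', β', hβ0', hβ', hβv'⟩ := exists_isWit hl hA hζ hχ hc'
  have hl0 : A.valuation (l : Qb) ≠ 0 :=
    (A.valuation.ne_zero_iff).2 (Nat.cast_ne_zero.2 hl.ne_zero)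
  have hw : IsWit A l m ζ (c + c') (k + k') (β * β') := by
    refine ⟨mul_ne_zero hβ0 hβ0', fun σ hσ => ?_, ?_⟩
    · rw [map_mul, hβ σ hσ, hβ' σ hσ, Pi.add_apply, pow_val_add hζ]
      ring
    · rw [mul_pow, map_mul, hβv, hβv', zpow_add₀ hl0]
  rw [vK_eq hl hA hw, vK_eq hl hA ⟨hβ0, hβ, hβv⟩, vK_eq hl hA ⟨hβ0', hβ', hβv'⟩, Int.cast_add]

theorem vK_cob (hl : l.Prime) (hA : A.LiesOverPrime l) (hζ : ζ ^ m = 1) (hχ : IsCyc ζ χ)
    (a : ZMod m) : vK A l m ζ (fun σ => (χ σ - 1) * a) = 0 := by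
  have hζ0 : ζ ≠ 0 := by
    rintro rfl
    rw [zero_pow (NeZero.ne m)] at hζ
    exact zero_ne_one hζ
  have hw : IsWit A l m ζ (fun σ => (χ σ - 1) * a) 0 (ζ ^ a.val) := by
    refine ⟨pow_ne_zero _ hζ0, fun σ _ => ?_, ?_⟩
    · rw [map_pow, hχ σ, ← pow_val_mul hζ, ← pow_val_add hζ]
      congr 2
      ring
    · rw [← pow_mul, mul_comm, pow_mul, hζ, one_pow, map_one, zpow_zero]
  rw [vK_eq hl hA hw, Int.cast_zero]

end Fermat.Agent.S15.Kum
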